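import Fermat.Agent.ML.AtP.TP.Main
import Fermat.Agent.ML.AtP.Main
import Fermat.Agent.S33.Ray.Good

/-!
# ML / AtP / TP / Up : the ring-level package of the stage (Mb)   (`p` = the last raising prime)

The ring `R` lives at the UPPER level `N' = N p` (joint (RHO) `Rho.IsRhoK N' m X' rE πE ρ Φ`); the stage module `U ≤ J₀(N)[m]` is embedded
by `pullA`.

* `ord_sub` : `S33.Ord I_P X` for every Galois stable `X ≤ J₀(N)[p^k]`, `p² ∤ N`.
* `isOrdinaryAt_of_isRhoK` : `ρ` is ordinary at `p`  (NOT strict: `X'` has a `p`-old and a `p`-new part); with `exists_ordOp` : `OrdOp`.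
* `smul_mem_of_gal`, `phi_mem_of_gal` : Galois stable subgroups are `R`-submodules, `Φ`-stable.
* `tp_up_abs`, `tp_up_U`, `tp_up` : **[TP-UP]** `(ψ(s) + p ψ(s)⁻¹) • uA v = uA (T_p v)` for ANY equivariant `uA : J₀(N) →+ J₀(N')`, `p ∤ N`.
* `OrdOp.trace`, `psi_sub_mem_of_cp`, `OrdOp.trace_sub_mem_of_cp`, `exists_trace_sub_mem` : `c_p ∈ J ⟹ htr` of `MCtx.hgen_stage_p`.
* `ann_mul_eq_zero`, `piE_psi` : `πE (ψ s) = ε`.
* `exists_cp` : the package.
-/

set_option autoImplicit false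
set_option linter.unusedSectionVars false
set_option linter.style.haveILetI false

noncomputable section

namespace Fermat.Agent.ML.TP

open ModularCurve AlgebraicCurve Matrix IsLocalRing
open Fermat.Agent.S33 Fermat.Agent.S53 Fermat.Agent.RIB Fermat.Agent.ML.AtP

local notation "Qbar" => AlgebraicClosure ℚ
local notation "M₂" => Matrix (Fin 2) (Fin 2)

/-- `S33.Ord` for a Galois stable subgroup of `J₀(N)[p^k]`, `p² ∤ N`. -/
theorem ord_sub {N p : ℕ} [NeZero N] (hp : p.Prime) (hp2 : p ≠ 2) (hN : ¬ p ^ 2 ∣ N) (k : ℕ)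
    (X : AddSubgroup (JZero N)) [DistribMulAction GQ ↥X]
    (hcoe : ∀ (g : GQ) (x : ↥X), ((g • x : ↥X) : JZero N) = g • (x : JZero N))
    (hX : ∀ x ∈ X, p ^ k • x = 0) {P : ValuationSubring Qbar} (hP : P.LiesOverPrime p) :
    S33.Ord (P.inertiaSubgroupIn ℚ) ↥X := by
  letI := S32.torsAction GQ (JZero N) ((p : ℤ) ^ k)
  have h : S33.Ord (P.inertiaSubgroupIn ℚ) (Submodule.torsionBy ℤ (JZero N) ((p : ℤ) ^ k)) := by
    by_cases hpN : p ∣ N
    · exact ordJ_of_newP hp hp2 ⟨hpN, hN⟩ (fun M _ _ hpM h49 => NP.newP hpM h49) k P hP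
    · exact Ray.ord_good N p hp hp2 hpN k P hP
  let φ : ↥X →+ Submodule.torsionBy ℤ (JZero N) ((p : ℤ) ^ k) :=
    { toFun := fun x => ⟨x.1, by
        rw [Submodule.mem_torsionBy_iff, ← Nat.cast_pow, natCast_zsmul]
        exact hX x.1 x.2⟩
      map_zero' := rfl
      map_add' := fun _ _ => rfl }
  refine h.of_injective φ (fun x y hxy => Subtype.ext (congrArg (fun z => z.1) hxy))
    fun τ _ x => Subtype.ext (hcoe τ x)

section RhoK

variable {N p k m : ℕ} [NeZero N] [NeZero m]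

/-- `p` is not a unit in a `ℤ/p^(k+1)`-algebra. -/
theorem natCast_mem_maximalIdeal {R : Type*} [CommRing R] [IsLocalRing R] [Algebra (ZMod m) R]
    (hm : m = p ^ (k + 1)) : (p : R) ∈ maximalIdeal R := by
  have hm0 : ((m : ℕ) : R) = 0 := by
    rw [← map_natCast (algebraMap (ZMod m) R), ZMod.natCast_self, map_zero]
  rw [mem_maximalIdeal, mem_nonunits_iff]
  intro hu
  have : IsUnit ((m : ℕ) : R) := by
    rw [hm, Nat.cast_pow]
    exact hu.pow _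
  rw [hm0] at this
  exact not_isUnit_zero this

/-- **(ORD)** for the `ρ` of `Rho.IsRhoK` at a level `N` with `p² ∤ N`, `W` multiplicative at `p`. -/
theorem isOrdinaryAt_of_isRhoK (hp : p.Prime) (hp2 : p ≠ 2) (hN : ¬ p ^ 2 ∣ N)
    (hm : m = p ^ (k + 1))
    {X : AddSubgroup (JZero N)} {rE : GQ →* M2 (ZMod m)}
    {R : Type} [CommRing R] [IsLocalRing R] [Finite R] [Algebra (ZMod m) R]
    [Module R ↥X] {πE : R →ₐ[ZMod m] ZMod m} {ρ : GQ →* M2 R}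
    {Φ : M2 R →ₐ[R] Module.End R ↥X} (H : Rho.IsRhoK N m X rE πE ρ Φ)
    (hX : ∀ x ∈ X, m • x = 0)
    (hcont : GaloisFactorsThroughFiniteLevel ρ)
    {YE : Type*} [AddCommGroup YE] [Finite YE] [DistribMulAction GQ YE] (hAnnE : Ann YE rE)
    (hmE : ∀ y : YE, m • y = 0)
    (hE : ∀ P : ValuationSubring Qbar, P.LiesOverPrime p →
      StrictMod (P.decompositionSubgroup ℚ) (P.inertiaSubgroupIn ℚ) m YE) :
    (ofMat ρ (matCont_of_cont hcont)).DetIsCyclotomic p ∧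
      (ofMat ρ (matCont_of_cont hcont)).IsOrdinaryAt p := by
  have hpm : p ∣ m := hm ▸ dvd_pow_self p (Nat.succ_ne_zero k)
  letI iG : DistribMulAction GQ ↥X :=
    DistribMulAction.compHom ↥X (((Φ : M2 R →ₐ[R] Module.End R ↥X) : M2 R →* Module.End R ↥X).comp ρ)
  have hact : ∀ (g : GQ) (x : ↥X), Φ (ρ g) x = g • x := fun _ _ => rfl
  have hcoe : ∀ (g : GQ) (x : ↥X), ((g • x : ↥X) : JZero N) = g • (x : JZero N) :=
    fun g x => H.act g x
  haveI iF : Finite ↥X :=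
    Set.Finite.to_subtype ((RIB.finite_torsion_JZero N m (NeZero.ne m)).subset fun x hx => hX x hx)
  have hann : Ann (↥X × YE) ρ :=
    ann_joint (πE : R →+* ZMod m) ρ rE Φ hact H.toE H.faithful hAnnE
  have hpR : (p : R) ∈ maximalIdeal R := natCast_mem_maximalIdeal hm
  have hdet : (ofMat ρ (matCont_of_cont hcont)).DetIsCyclotomic p :=
    detIsCyclotomic_ofMat hp hm hpR ρ _ H.det
  have hdata : ∀ P : ValuationSubring Qbar, P.LiesOverPrime p →
      ∃ δ ∈ P.inertiaSubgroupIn ℚ, ∃ a : ℕ, (∀ ζ : Qbar, ζ ^ p = 1 → δ ζ = ζ ^ a) ∧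
        ¬ a ≡ 1 [MOD p] := fun P hP => exists_inertia_pow hp hp2 P hP
  refine ⟨hdet, isOrdinaryAt_of_ord hp hp2 _ hdet (hann.annV _) (fun P hP => ?_) (fun P hP => ?_)⟩
  · obtain ⟨φ, hφ⟩ := S56.exists_isFrobeniusAt hp hP
    obtain ⟨δ, hδ, a, ha, ha1⟩ := hdata P hP
    refine ord_prod (ord_sub hp hp2 hN (k + 1) X hcoe (hm ▸ hX) hP) ?_
    exact ((hE P hP).toric (inertia_le_decomposition P) hp hm hmE hφ.mem_decompositionSubgroup hδ
      (fun μ hμ => GAL.cycloChar_spec m δ hμ) (cycloChar_val_not_modEq hp hpm ha ha1)).ord hδ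
  · obtain ⟨δ, hδ, a, ha, ha1⟩ := hdata P hP
    set a' : ℕ := ((GAL.cycloChar m δ : (ZMod m)ˣ) : ZMod m).val with ha'
    have ha'1 : ¬ a' ≡ 1 [MOD p] := cycloChar_val_not_modEq hp hpm ha ha1
    obtain ⟨e, -, heI, hs⟩ := hE P hP
    have hID := inertia_le_decomposition P
    haveI : Fact p.Prime := ⟨hp⟩
    let f : R →+* ZMod p := (ZMod.castHom hpm (ZMod p)).comp (πE : R →+* ZMod m)
    have hf : Function.Surjective f := by
      refine (ZMod.castHom_surjective hpm).comp fun c => ⟨algebraMap (ZMod m) R c, ?_⟩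
      exact πE.commutes c
    have hmapf : ∀ g, (ρ g).map f = (ZMod.castHom hpm (ZMod p)).mapMatrix (rE g) := by
      intro g
      rw [← H.toE g]
      rfl
    refine resLine_of_res f hf ρ _ _ (δ := δ) (a := ((a' : ℕ) : ZMod p)) ?_ ?_ ?_
    · intro h1
      apply ha'1
      rw [← ZMod.natCast_eq_natCast_iff, h1, Nat.cast_one]
    · have e1 : ((ρ δ).map f).det = f (ρ δ).det := (RingHom.map_det f (ρ δ)).symm
      rw [e1, H.det, RIB.Rho.chiM_apply]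
      show ZMod.castHom hpm (ZMod p) (πE (algebraMap (ZMod m) R _)) = _
      rw [πE.commutes, ← ZMod.natCast_zmod_val ((GAL.cycloChar m δ : (ZMod m)ˣ) : ZMod m)]
      exact map_natCast _ _
    · intro τ hτ
      have h1 : (rE δ - ((a' : ℤ) : ZMod m) • (1 : M2 (ZMod m))) * (rE τ - 1) = 0 :=
        hAnnE.mul_eq_zero fun y => by
          have := hs δ (hID hδ) τ (hID hτ) y a' (fun μ hμ => GAL.cycloChar_spec m δ hμ)
          rwa [heI δ hδ, heI τ hτ, one_smul, mul_one] at this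
      have h2 := congrArg (ZMod.castHom hpm (ZMod p)).mapMatrix h1
      rw [map_mul, map_sub, map_sub, map_one, map_zero] at h2
      rw [hmapf, hmapf, ← h2]
      congr 2
      have e2 : ((a' : ℤ) : ZMod m) • (1 : M2 (ZMod m)) = ((a' : ℕ) : M2 (ZMod m)) := by
        rw [Int.cast_natCast, Nat.cast_smul_eq_nsmul, nsmul_eq_mul, mul_one]
      have e3 : ((a' : ℕ) : ZMod p) • (1 : Matrix (Fin 2) (Fin 2) (ZMod p)) =
          ((a' : ℕ) : Matrix (Fin 2) (Fin 2) (ZMod p)) := by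
        rw [Nat.cast_smul_eq_nsmul, nsmul_eq_mul, mul_one]
      rw [e2, e3, map_natCast]

end RhoK

/-! ### `T_p` through an equivariant map, abstract form -/

section Stab

variable {k R V G : Type*} [CommRing k] [CommRing R] [Algebra k R] [AddCommGroup V] [Module R V]
  [Group G] (Φ : M₂ R →ₐ[R] Module.End R V) (ρ : G →* M₂ R)

/-- a `G`- and `k`-stable subgroup is `R`-stable if `R` is generated over `k` by the traces. -/
theorem smul_mem_of_gal (htr : Algebra.adjoin k (Set.range fun g : G => (ρ g).trace) = ⊤)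
    (hdet : ∀ g, ∃ c : k, (ρ g).det = algebraMap k R c) (Y : AddSubgroup V)
    (hYk : ∀ (c : k), ∀ y ∈ Y, algebraMap k R c • y ∈ Y) (hYg : ∀ g, ∀ y ∈ Y, Φ (ρ g) y ∈ Y)
    (r : R) : ∀ y ∈ Y, r • y ∈ Y := by
  have hr : r ∈ Algebra.adjoin k (Set.range fun g : G => (ρ g).trace) := by
    rw [htr]; exact Algebra.mem_top
  induction hr using Algebra.adjoin_induction with
  | mem a ha =>
    obtain ⟨g, rfl⟩ := ha
    obtain ⟨c, hc⟩ := hdet g
    intro y hy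
    have h := Hard.add_det_smul_inv (ρ g) (ρ g⁻¹) (by rw [← map_mul, mul_inv_cancel, map_one])
    have h2 : (ρ g).trace • y = Φ (ρ g) y + algebraMap k R c • Φ (ρ g⁻¹) y := by
      calc (ρ g).trace • y = Φ ((ρ g).trace • (1 : M₂ R)) y := by
            rw [map_smul, map_one, LinearMap.smul_apply, Module.End.one_apply]
        _ = Φ (ρ g) y + (ρ g).det • Φ (ρ g⁻¹) y := by
            rw [← h, map_add, map_smul, LinearMap.add_apply, LinearMap.smul_apply]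
        _ = _ := by rw [hc]
    show (ρ g).trace • y ∈ Y
    rw [h2]
    exact Y.add_mem (hYg g y hy) (hYk c _ (hYg g⁻¹ y hy))
  | algebraMap c => exact hYk c
  | add a b _ _ ha hb =>
    intro y hy
    rw [add_smul]
    exact Y.add_mem (ha y hy) (hb y hy)
  | mul a b _ _ ha hb =>
    intro y hy
    rw [mul_smul]
    exact ha _ (hb y hy)

/-- a `G`-stable submodule is `Φ`-stable if `ρ` spans `M₂(R)`. -/
theorem phi_mem_of_gal (hspan : Algebra.adjoin R (Set.range ρ) = ⊤) (Y : Submodule R V)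
    (hYg : ∀ g, ∀ y ∈ Y, Φ (ρ g) y ∈ Y) (A : M₂ R) : ∀ y ∈ Y, Φ A y ∈ Y := by
  have hA : A ∈ Algebra.adjoin R (Set.range ρ) := by rw [hspan]; exact Algebra.mem_top
  induction hA using Algebra.adjoin_induction with
  | mem a ha =>
    obtain ⟨g, rfl⟩ := ha
    exact hYg g
  | algebraMap c =>
    intro y hy
    rw [AlgHom.commutes, Module.algebraMap_end_apply]
    exact Y.smul_mem c hy
  | add a b _ _ ha hb =>
    intro y hy
    rw [map_add, LinearMap.add_apply]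
    exact Y.add_mem (ha y hy) (hb y hy)
  | mul a b _ _ ha hb =>
    intro y hy
    rw [map_mul, Module.End.mul_apply]
    exact ha _ (hb y hy)

variable {U₀ : Type*} [AddCommGroup U₀]

/-- **[TP-UP]**, abstract form : `U₀` any group with operators `γ g`, `T₀`; `f : U₀ →+ V` equivariant. -/
theorem tp_up_abs (hspan : Algebra.adjoin R (Set.range ρ) = ⊤)
    (htr : Algebra.adjoin k (Set.range fun g : G => (ρ g).trace) = ⊤)
    (hdet : ∀ g, ∃ c : k, (ρ g).det = algebraMap k R c)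
    (hk : ∀ c : k, ∃ n : ℕ, ∀ x : V, algebraMap k R c • x = n • x)
    (γ : G → U₀ →+ U₀) (f : U₀ →+ V) (hf : ∀ g v, f (γ g v) = Φ (ρ g) (f v))
    (I : Set G) (s : G) (p : ℕ) (T₀ : U₀ →+ U₀) (hT : ∀ g v, T₀ (γ g v) = γ g (T₀ v))
    (hES : ∀ v, T₀ v - γ s v - p • γ s⁻¹ v ∈
      AddSubgroup.closure {w : U₀ | ∃ τ ∈ I, ∃ z : U₀, w = γ τ z - z})
    (U : M₂ R) (hUI : ∀ τ ∈ I, U * (ρ τ - 1) = 0) (ψ ψ' : R) (hψ : ψ * ψ' = 1)
    (hUs : U * ρ s = ψ • U) {i j : Fin 2} (hu : IsUnit (U i j)) (v : U₀) :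
    f (T₀ v) = (ψ + p * ψ') • f v := by
  have hUs' : U * ρ s⁻¹ = ψ' • U := by
    have h1 : ρ s * ρ s⁻¹ = 1 := by rw [← map_mul, mul_inv_cancel, map_one]
    calc U * ρ s⁻¹ = (ψ' * ψ) • (U * ρ s⁻¹) := by rw [mul_comm, hψ, one_smul]
      _ = ψ' • ((ψ • U) * ρ s⁻¹) := by rw [mul_smul, smul_mul_assoc]
      _ = ψ' • U := by rw [← hUs, mul_assoc, h1, mul_one]
  have hker : ∀ w ∈ AddSubgroup.closure {w : U₀ | ∃ τ ∈ I, ∃ z : U₀, w = γ τ z - z},
      Φ U (f w) = 0 := by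
    intro w hw
    induction hw using AddSubgroup.closure_induction with
    | mem w hw =>
      obtain ⟨τ, hτ, z, rfl⟩ := hw
      have h1 : f (γ τ z - z) = Φ (ρ τ - 1) (f z) := by
        rw [map_sub, hf, map_sub, map_one, LinearMap.sub_apply, Module.End.one_apply]
      rw [h1, ← Module.End.mul_apply, ← map_mul, hUI τ hτ, map_zero, LinearMap.zero_apply]
    | zero => rw [map_zero, map_zero]
    | add a b _ _ ha hb => rw [map_add, map_add, ha, hb, add_zero]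
    | neg a _ ha => rw [map_neg, map_neg, ha, neg_zero]
  -- the defect
  let t : U₀ →+ V := f.comp T₀ - (DistribSMul.toAddMonoidHom V (ψ + p * ψ')).comp f
  have htx : ∀ x, t x = f (T₀ x) - (ψ + p * ψ') • f x := fun x => rfl
  have hZg : ∀ g, ∀ y ∈ t.range, Φ (ρ g) y ∈ t.range := by
    rintro g _ ⟨x, rfl⟩
    exact ⟨γ g x, by rw [htx, htx, hT, hf, hf, map_sub, map_smul]⟩
  have hZk : ∀ (c : k), ∀ y ∈ t.range, algebraMap k R c • y ∈ t.range := by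
    intro c y hy
    obtain ⟨n, hn⟩ := hk c
    rw [hn]
    exact t.range.nsmul_mem hy n
  let Z : Submodule R V :=
    { t.range with smul_mem' := fun r y hy => smul_mem_of_gal Φ ρ htr hdet t.range hZk hZg r y hy }
  have hZ : ∀ y, y ∈ Z ↔ y ∈ t.range := fun _ => Iff.rfl
  have h1 : U i j • t v = 0 := by
    refine RIB.entry_smul_eq_zero Φ Z (phi_mem_of_gal Φ ρ hspan Z hZg) U ?_ i j
      ((hZ _).2 ⟨v, rfl⟩)
    rintro _ ⟨x, rfl⟩
    have h2 := hker _ (hES x)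
    have e1 : Φ U (f (γ s x)) = ψ • Φ U (f x) := by
      rw [hf, ← Module.End.mul_apply, ← map_mul, hUs, map_smul, LinearMap.smul_apply]
    have e2 : Φ U (f (γ s⁻¹ x)) = ψ' • Φ U (f x) := by
      rw [hf, ← Module.End.mul_apply, ← map_mul, hUs', map_smul, LinearMap.smul_apply]
    rw [map_sub, map_sub, map_nsmul, map_sub, map_sub, map_nsmul, e1, e2] at h2
    rw [htx, map_sub, map_smul, add_smul, mul_smul, Nat.cast_smul_eq_nsmul, ← h2]
    abel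
  obtain ⟨w, hw⟩ := hu.exists_left_inv
  have h0 : t v = 0 := by
    calc t v = (w * U i j) • t v := by rw [hw, one_smul]
      _ = 0 := by rw [mul_smul, h1, smul_zero]
  rw [htx, sub_eq_zero] at h0
  exact h0

end Stab

/-! ### `T_p` through an equivariant map, `U₀ ↪ J₀(L)[p^k]` -/

section UpEmb

variable {L p : ℕ} [NeZero L] {U₀ : Type*} [AddCommGroup U₀] (j : U₀ →+ JZero L)
  (γ : GQ → U₀ →+ U₀)

/-- transport of `S33.aug` along `j`. -/
theorem mem_closure_of_mem_aug' (hγ : ∀ g v, j (γ g v) = g • j v) (I : Subgroup GQ)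
    {w : JZero L} (hw : w ∈ S33.aug I j.range) : ∃ v : U₀, j v = w ∧ v ∈
      AddSubgroup.closure {w : U₀ | ∃ τ ∈ (I : Set GQ), ∃ z : U₀, w = γ τ z - z} := by
  unfold S33.aug at hw
  induction hw using AddSubgroup.closure_induction with
  | mem w hw =>
    obtain ⟨τ, hτ, _, ⟨z, rfl⟩, rfl⟩ := hw
    exact ⟨γ τ z - z, by rw [map_sub, hγ], AddSubgroup.subset_closure ⟨τ, hτ, z, rfl⟩⟩
  | zero => exact ⟨0, map_zero j, AddSubgroup.zero_mem _⟩
  | add a b _ _ ha hb =>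
    obtain ⟨a', rfl, ha2⟩ := ha
    obtain ⟨b', rfl, hb2⟩ := hb
    exact ⟨a' + b', map_add j a' b', AddSubgroup.add_mem _ ha2 hb2⟩
  | neg a _ ha =>
    obtain ⟨a', rfl, ha2⟩ := ha
    exact ⟨-a', map_neg j a', AddSubgroup.neg_mem _ ha2⟩

/-- `[TP-ES]` on `U₀`. -/
theorem tp_es_emb' (hj : Function.Injective j) (hγ : ∀ g v, j (γ g v) = g • j v)
    (hp : p.Prime) (hp2 : p ≠ 2) (hpL : ¬ p ∣ L) (k : ℕ) (hV : ∀ v, p ^ k • j v = 0)
    (T₀ : U₀ → U₀) (hT₀ : ∀ v, j (T₀ v) = heckeOperatorBar L ⟨p, hp⟩ (j v))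
    {A : ValuationSubring Qbar} (hA : A.LiesOverPrime p) {s : GQ} (hs : A.IsFrobeniusAt s p)
    (v : U₀) : T₀ v - γ s v - p • γ s⁻¹ v ∈
      AddSubgroup.closure {w : U₀ | ∃ τ ∈ ((A.inertiaSubgroupIn ℚ : Subgroup GQ) : Set GQ),
        ∃ z : U₀, w = γ τ z - z} := by
  have hst : ∀ (g : GQ), ∀ x ∈ j.range, g • x ∈ j.range := by
    rintro g _ ⟨z, rfl⟩
    exact ⟨γ g z, hγ g z⟩
  have h1 := tp_es hp hp2 hpL A hA hs k j.range
    (by rintro _ ⟨z, rfl⟩; exact hV z) (fun τ _ z hz => hst τ z hz) (hst s) (hst s⁻¹)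
    (by rintro _ ⟨z, rfl⟩; exact ⟨T₀ z, hT₀ z⟩) (j v) ⟨v, rfl⟩
  obtain ⟨v', h2, h3⟩ := mem_closure_of_mem_aug' j γ hγ _ h1
  have e : T₀ v - γ s v - p • γ s⁻¹ v = v' := by
    apply hj
    rw [h2, map_sub, map_sub, map_nsmul, hT₀, hγ, hγ]
  rw [e]
  exact h3

end UpEmb

/-! ### consequences of the operator form -/

section OpCons

variable {R G : Type*} [CommRing R] [Group G] {ρ : G →* M₂ R} {D I : Subgroup G} {x ψ : G → R}

/-- `tr ρ(σ) = x(σ) + ψ(σ)`. -/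
theorem OrdOp.trace (H : OrdOp ρ D I x ψ) {σ : G} (hσ : σ ∈ D) : (ρ σ).trace = x σ + ψ σ := by
  have h1 := H.op σ hσ σ hσ
  have h4 : ρ σ * ρ σ⁻¹ = 1 := by rw [← map_mul, mul_inv_cancel, map_one]
  have h2 : ρ σ * ρ σ + (ρ σ).det • (1 : M₂ R) = (ρ σ).trace • ρ σ := by
    have := congrArg (fun B => ρ σ * B) (Hard.add_det_smul_inv (ρ σ) (ρ σ⁻¹) h4)
    simp only [mul_add, mul_smul_comm, mul_one, h4] at this
    exact this
  have h3 : ((ρ σ).trace - x σ - ψ σ) • ρ σ = 0 := by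
    have e : (ρ σ - x σ • (1 : M₂ R)) * (ρ σ - ψ σ • (1 : M₂ R)) =
        ρ σ * ρ σ - (x σ + ψ σ) • ρ σ + (x σ * ψ σ) • (1 : M₂ R) := by
      rw [sub_mul, mul_sub, mul_sub, smul_mul_assoc, smul_mul_assoc, mul_smul_comm, mul_smul_comm,
        one_mul, mul_one, one_mul, smul_smul, add_smul]
      abel
    rw [e, ← H.det σ hσ] at h1
    calc ((ρ σ).trace - x σ - ψ σ) • ρ σ = (ρ σ).trace • ρ σ - (x σ + ψ σ) • ρ σ := by
          rw [sub_sub, sub_smul]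
      _ = ρ σ * ρ σ - (x σ + ψ σ) • ρ σ + (ρ σ).det • (1 : M₂ R) := by rw [← h2]; abel
      _ = 0 := h1
  have h5 : ((ρ σ).trace - x σ - ψ σ) • (1 : M₂ R) = 0 := by
    rw [← h4, ← smul_mul_assoc, h3, zero_mul]
  have h6 := congrFun (congrFun h5 0) 0
  simp only [Matrix.smul_apply, Matrix.one_apply_eq, smul_eq_mul, mul_one, Matrix.zero_apply] at h6
  linear_combination h6

variable [IsLocalRing R]

/-- `c_p ∈ J ⟹ ψ(s) - ε ∈ J`. -/
theorem psi_sub_mem_of_cp {ψ₀ ψ' ε p : R} (hψ : ψ₀ * ψ' = 1) (hε : ε * ε = 1)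
    (hp : p ∈ maximalIdeal R) {J : Ideal R} (hc : ψ₀ + p * ψ' - ε * (p + 1) ∈ J) : ψ₀ - ε ∈ J := by
  rw [cp_factor p hψ hε] at hc
  have hu : IsUnit (1 - p * ε * ψ') := by
    by_contra h
    have h1 : 1 - p * ε * ψ' ∈ maximalIdeal R := (mem_maximalIdeal _).2 h
    have h2 : p * ε * ψ' ∈ maximalIdeal R := by
      rw [mul_assoc]
      exact Ideal.mul_mem_right _ _ hp
    have h3 : (1 : R) ∈ maximalIdeal R := by
      have := Ideal.add_mem _ h1 h2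
      rwa [sub_add_cancel] at this
    exact (Ideal.ne_top_iff_one _).1 (Ideal.IsMaximal.ne_top inferInstance) h3
  obtain ⟨w, hw⟩ := hu.exists_right_inv
  have : ψ₀ - ε = ((ψ₀ - ε) * (1 - p * ε * ψ')) * w := by rw [mul_assoc, hw, mul_one]
  rw [this]
  exact Ideal.mul_mem_right _ _ hc

/-- `c_p ∈ J ⟹ tr ρ(s) - (det ρ(s) ε + ε) ∈ J`   (`htr` of `hgen_stage_p`). -/
theorem OrdOp.trace_sub_mem_of_cp (H : OrdOp ρ D I x ψ) {s : G} (hs : s ∈ D) {ψ' ε p : R}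
    (hψ : ψ s * ψ' = 1) (hε : ε * ε = 1) (hp : p ∈ maximalIdeal R) {J : Ideal R}
    (hc : ψ s + p * ψ' - ε * (p + 1) ∈ J) : (ρ s).trace - ((ρ s).det * ε + ε) ∈ J := by
  have h1 := psi_sub_mem_of_cp hψ hε hp hc
  have hx : x s = (ρ s).det * ψ' := by rw [H.det s hs, mul_assoc, hψ, mul_one]
  have e : (ρ s).trace - ((ρ s).det * ε + ε) =
      (ψ s - ε) * (1 - (ρ s).det * ε * ψ') := by
    rw [H.trace hs, hx]
    linear_combination ((ρ s).det * ε) * hψ - ((ρ s).det * ψ') * hε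
  rw [e]
  exact Ideal.mul_mem_right _ _ h1

end OpCons

/-! ### the joint (RHO) at the upper level -/

section Up

variable {N N' p m : ℕ} [NeZero N] [NeZero N'] [NeZero m] {X' : AddSubgroup (JZero N')}
  {rE : GQ →* M₂ (ZMod m)} {R : Type} [CommRing R] [Algebra (ZMod m) R] [Module R ↥X']
  {πE : R →ₐ[ZMod m] ZMod m} {ρ : GQ →* M₂ R} {Φ : M₂ R →ₐ[R] Module.End R ↥X'}

set_option maxHeartbeats 2000000 in
/-- **[TP-UP]**, `U`-form : `uA : J₀(N) →+ J₀(N')` ANY equivariant map, `p ∤ N`, `U ≤ J₀(N)[m]` stable under `G_ℚ` and `T_p`,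
`uA U ≤ X'`. -/
theorem tp_up_U (H : Rho.IsRhoK N' m X' rE πE ρ Φ) (hspan : Algebra.adjoin R (Set.range ρ) = ⊤)
    (hp : p.Prime) (hp2 : p ≠ 2) (hpN : ¬ p ∣ N) {k : ℕ} (hm : m = p ^ k)
    (uA : JZero N →+ JZero N') (huA : ∀ (g : GQ) v, uA (g • v) = g • uA v)
    (U : AddSubgroup (JZero N)) (hUG : ∀ g : GQ, ∀ v ∈ U, g • v ∈ U) (hUm : ∀ v ∈ U, m • v = 0)
    (hUT : ∀ v ∈ U, heckeOperatorBar N ⟨p, hp⟩ v ∈ U) (hUX : ∀ v ∈ U, uA v ∈ X')
    {A : ValuationSubring Qbar} (hA : A.LiesOverPrime p) {s : GQ} (hs : A.IsFrobeniusAt s p)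
    (W : M₂ R) (hWI : ∀ τ ∈ A.inertiaSubgroupIn ℚ, W * (ρ τ - 1) = 0) (ψ ψ' : R)
    (hψ : ψ * ψ' = 1) (hWs : W * ρ s = ψ • W) {i i' : Fin 2} (hu : IsUnit (W i i'))
    {v : JZero N} (hv : v ∈ U) :
    (((ψ + p * ψ') • (⟨uA v, hUX v hv⟩ : ↥X') : ↥X') : JZero N') =
      uA (heckeOperatorBar N ⟨p, hp⟩ v) := by
  obtain ⟨γ, hγ⟩ : ∃ γ : GQ → ↥U →+ ↥U, ∀ g v, U.subtype (γ g v) = g • U.subtype v :=
    ⟨fun g => ((DistribSMul.toAddMonoidHom (JZero N) g).comp U.subtype).codRestrict U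
      (fun x => hUG g x.1 x.2), fun _ _ => rfl⟩
  obtain ⟨T₀, hT₀⟩ : ∃ T₀ : ↥U →+ ↥U,
      ∀ v, U.subtype (T₀ v) = heckeOperatorBar N ⟨p, hp⟩ (U.subtype v) :=
    ⟨((heckeOperatorBar N ⟨p, hp⟩).toAddMonoidHom.comp U.subtype).codRestrict U
      (fun x => hUT x.1 x.2), fun _ => rfl⟩
  obtain ⟨f, hf⟩ : ∃ f : ↥U →+ ↥X', ∀ v, X'.subtype (f v) = uA (U.subtype v) :=
    ⟨(uA.comp U.subtype).codRestrict X' (fun x => hUX x.1 x.2), fun _ => rfl⟩
  have hiU : Function.Injective U.subtype := Subtype.val_injective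
  have hiX : Function.Injective X'.subtype := Subtype.val_injective
  have hact : ∀ g v, X'.subtype (Φ (ρ g) v) = g • X'.subtype v := H.act
  have halg : ∀ (c : ZMod m) (x : ↥X'), X'.subtype (algebraMap (ZMod m) R c • x) =
      c.val • X'.subtype x := H.alg
  have key := tp_up_abs (k := ZMod m) Φ ρ hspan H.tr (fun g => ⟨_, H.det g⟩)
    (fun c => ⟨c.val, fun x => hiX (by rw [halg, map_nsmul])⟩) γ f
    (fun g v => hiX (by rw [hf, hγ, huA, hact, hf]))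
    ((A.inertiaSubgroupIn ℚ : Subgroup GQ) : Set GQ) s p T₀
    (fun g v => hiU (by
      rw [hT₀, hγ, hγ, hT₀]
      exact (GAL.galHecke N ⟨p, hp⟩ g (U.subtype v)).symm))
    (tp_es_emb' U.subtype γ hiU hγ hp hp2 hpN k (fun v => hm ▸ hUm v.1 v.2) T₀ hT₀ hA hs)
    W hWI ψ ψ' hψ hWs hu ⟨v, hv⟩
  have e1 : f ⟨v, hv⟩ = (⟨uA v, hUX v hv⟩ : ↥X') := hiX (hf ⟨v, hv⟩)
  rw [← e1, ← key]
  exact (hf _).trans (congrArg uA (hT₀ ⟨v, hv⟩))

/-- **[TP-UP]** from the operator form of "ordinary" at the upper level. -/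
theorem tp_up [IsLocalRing R] (H : Rho.IsRhoK N' m X' rE πE ρ Φ)
    (hspan : Algebra.adjoin R (Set.range ρ) = ⊤)
    (hp : p.Prime) (hp2 : p ≠ 2) (hpN : ¬ p ∣ N) {k : ℕ} (hm : m = p ^ k)
    (uA : JZero N →+ JZero N') (huA : ∀ (g : GQ) v, uA (g • v) = g • uA v)
    (U : AddSubgroup (JZero N)) (hUG : ∀ g : GQ, ∀ v ∈ U, g • v ∈ U) (hUm : ∀ v ∈ U, m • v = 0)
    (hUT : ∀ v ∈ U, heckeOperatorBar N ⟨p, hp⟩ v ∈ U) (hUX : ∀ v ∈ U, uA v ∈ X')
    {A : ValuationSubring Qbar} (hA : A.LiesOverPrime p) {s : GQ} (hs : A.IsFrobeniusAt s p)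
    {x ψ : GQ → R} (HO : OrdOp ρ (A.decompositionSubgroup ℚ) (A.inertiaSubgroupIn ℚ) x ψ)
    {δ : GQ} (hδ : δ ∈ A.inertiaSubgroupIn ℚ) (hδ1 : IsUnit ((ρ δ).det - 1))
    {ψ' : R} (hψ : ψ s * ψ' = 1) {v : JZero N} (hv : v ∈ U) :
    (((ψ s + p * ψ') • (⟨uA v, hUX v hv⟩ : ↥X') : ↥X') : JZero N') =
      uA (heckeOperatorBar N ⟨p, hp⟩ v) := by
  have hID := inertia_le_decomposition A
  have hx : x δ = (ρ δ).det := by rw [HO.det δ (hID hδ), HO.one δ hδ, mul_one]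
  obtain ⟨i, i', hu⟩ := exists_unit_entry (ρ δ) (isUnit_det_rho ρ δ) hδ1
  refine tp_up_U H hspan hp hp2 hpN hm uA huA U hUG hUm hUT hUX hA hs
    (ρ δ - (ρ δ).det • (1 : M₂ R)) (fun τ hτ => ?_) (ψ s) ψ' hψ ?_ hu hv
  · have := HO.op δ (hID hδ) τ (hID hτ)
    rwa [hx, HO.one τ hτ, one_smul] at this
  · have := HO.op δ (hID hδ) s hs.mem_decompositionSubgroup
    rw [hx, mul_sub, sub_eq_zero, mul_smul_comm, mul_one] at this
    exact this

/-- `(ρ δ - a)(ρ τ - b) = 0` from the operator identity on `Y`. -/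
theorem ann_mul_eq_zero {Y : Type*} [AddCommGroup Y] [DistribMulAction GQ Y] {R : Type}
    [CommRing R] {ρ : GQ →* M2 R} (h : Ann Y ρ) {δ τ : GQ} {a b : ℤ}
    (hY : ∀ y : Y, δ • (τ • y - b • y) = a • (τ • y - b • y)) :
    (ρ δ - (a : R) • (1 : M2 R)) * (ρ τ - (b : R) • (1 : M2 R)) = 0 := by
  have h1 := h.lift_eq_zero
    (f := (MonoidAlgebra.of ℤ GQ δ - a • 1) * (MonoidAlgebra.of ℤ GQ τ - b • 1)) (by
      refine LinearMap.ext fun y => ?_
      rw [map_mul, map_sub, map_sub, map_zsmul, map_zsmul, map_one, Module.End.mul_apply,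
        LinearMap.sub_apply, LinearMap.sub_apply, actY_of, LinearMap.smul_apply,
        Module.End.one_apply, actY_of, LinearMap.smul_apply, Module.End.one_apply, hY, sub_self]
      rfl)
  rw [map_mul, map_sub, map_sub, map_zsmul, map_zsmul, map_one, MonoidAlgebra.lift_of,
    MonoidAlgebra.lift_of] at h1
  rw [← h1, Int.cast_smul_eq_zsmul, Int.cast_smul_eq_zsmul]

/-- the `E`-side value of `ψ(s)`. -/
theorem piE_psi [IsLocalRing R] (H : Rho.IsRhoK N' m X' rE πE ρ Φ) (hp : p.Prime) {k : ℕ}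
    (hm : m = p ^ (k + 1)) {D I : Subgroup GQ} {x ψ : GQ → R} (HO : OrdOp ρ D I x ψ) (hID : I ≤ D)
    {δ : GQ} (hδ : δ ∈ I) (hδ1 : IsUnit ((ρ δ).det - 1)) {s : GQ} (hs : s ∈ D) {ε : ZMod m}
    (hE : (rE δ - (rE δ).det • (1 : M₂ (ZMod m))) * (rE s - ε • (1 : M₂ (ZMod m))) = 0) :
    πE (ψ s) = ε := by
  have hpm : p ∣ m := hm ▸ dvd_pow_self p (Nat.succ_ne_zero k)
  haveI : IsLocalRing (ZMod m) := Rho.isLocalRing_zmod hp hm hpm
  have hx : x δ = (ρ δ).det := by rw [HO.det δ (hID hδ), HO.one δ hδ, mul_one]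
  have hmap : ∀ g, (πE : R →+* ZMod m).mapMatrix (ρ g) = rE g := H.toE
  have hdet : (πE : R →+* ZMod m) (ρ δ).det = (rE δ).det := by
    rw [RingHom.map_det, hmap]
  have h1 := congrArg (πE : R →+* ZMod m).mapMatrix (HO.op δ (hID hδ) s hs)
  have hsm : ∀ c : R, (πE : R →+* ZMod m).mapMatrix (c • (1 : M₂ R)) =
      (πE : R →+* ZMod m) c • (1 : M₂ (ZMod m)) := by
    intro c
    ext a b
    by_cases hab : a = b
    · subst hab; simp
    · simp [hab]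
  rw [map_mul, map_sub, map_sub, hmap, hmap, hsm, hsm, hx, hdet, map_zero] at h1
  have h2 : ((πE : R →+* ZMod m) (ψ s) - ε) • (rE δ - (rE δ).det • (1 : M₂ (ZMod m))) = 0 := by
    have e : ((πE : R →+* ZMod m) (ψ s) - ε) • (rE δ - (rE δ).det • (1 : M₂ (ZMod m))) =
        (rE δ - (rE δ).det • (1 : M₂ (ZMod m))) * (rE s - ε • (1 : M₂ (ZMod m))) -
        (rE δ - (rE δ).det • (1 : M₂ (ZMod m))) *
          (rE s - (πE : R →+* ZMod m) (ψ s) • (1 : M₂ (ZMod m))) := by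
      rw [← mul_sub, sub_sub_sub_cancel_left, ← sub_smul, mul_smul_comm, mul_one]
    rw [e, hE, h1, sub_zero]
  have hu1 : IsUnit ((rE δ).det - 1) := by
    rw [← hdet, ← map_one (πE : R →+* ZMod m), ← map_sub]
    exact hδ1.map _
  obtain ⟨i, i', hu⟩ := exists_unit_entry (rE δ) (isUnit_det_rho rE δ) hu1
  have h3 := congrFun (congrFun h2 i) i'
  rw [Matrix.smul_apply, smul_eq_mul, Matrix.zero_apply] at h3
  exact sub_eq_zero.1 (hu.mul_left_eq_zero.1 h3)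

/-- `htr` of `MCtx.hgen_stage_p` from `c_p ∈ J`. -/
theorem exists_trace_sub_mem [IsLocalRing R] (H : Rho.IsRhoK N' m X' rE πE ρ Φ) {k : ℕ}
    (hm : m = p ^ (k + 1)) {D I : Subgroup GQ} {x ψ : GQ → R} (HO : OrdOp ρ D I x ψ)
    {s : GQ} (hs : s ∈ D) {ψ' : R} (hψ : ψ s * ψ' = 1) {ε : ℤ} (hε : ε * ε = 1) {J : Ideal R}
    (hc : ψ s + p * ψ' - (ε : R) * ((p : R) + 1) ∈ J) : ∃ c : ℤ, (ρ s).trace - (c : R) ∈ J := by
  have h1 := HO.trace_sub_mem_of_cp hs hψ (ε := (ε : R)) (by exact_mod_cast congrArg (Int.cast : ℤ → R) hε)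
    (natCast_mem_maximalIdeal hm) hc
  refine ⟨((Rho.chiM m s).val : ℤ) * ε + ε, ?_⟩
  have e : (ρ s).det = (((Rho.chiM m s).val : ℤ) : R) := by
    rw [H.det, Int.cast_natCast, ← map_natCast (algebraMap (ZMod m) R), ZMod.natCast_zmod_val]
  rw [e] at h1
  push_cast at h1 ⊢
  exact h1

set_option maxHeartbeats 1000000 in
/-- **the package of the stage (Mb)** : the element `c_p` of the ring at the upper level `N'` (`p² ∤ N'`). -/
theorem exists_cp [IsLocalRing R] [Finite R] (H : Rho.IsRhoK N' m X' rE πE ρ Φ) {T : Finset ℕ}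
    {a : ℕ → ℤ} (E : Rho.EK m T a rE) (hp : p.Prime) (hp2 : p ≠ 2) (hN' : ¬ p ^ 2 ∣ N') {k : ℕ}
    (hm : m = p ^ (k + 1)) (hX' : ∀ x ∈ X', m • x = 0)
    (hcont : GaloisFactorsThroughFiniteLevel ρ)
    {YE : Type*} [AddCommGroup YE] [Finite YE] [DistribMulAction GQ YE] (hAnnE : Ann YE rE)
    (hmE : ∀ y : YE, m • y = 0)
    (hE : ∀ P : ValuationSubring Qbar, P.LiesOverPrime p →
      StrictMod (P.decompositionSubgroup ℚ) (P.inertiaSubgroupIn ℚ) m YE)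
    {A : ValuationSubring Qbar} (hA : A.LiesOverPrime p) {s : GQ} (hs : A.IsFrobeniusAt s p)
    {ε : ℤ} (hε : ε * ε = 1)
    (hEs : ∀ δ ∈ A.inertiaSubgroupIn ℚ, ∀ (y : YE) (b : ℕ), (∀ μ : Qbar, μ ^ m = 1 → δ μ = μ ^ b) →
      δ • (s • y - ε • y) = (b : ℤ) • (s • y - ε • y)) :
    ∃ c : R, πE c = 0 ∧ (∀ J : Ideal R, c ∈ J → ∃ c₀ : ℤ, (ρ s).trace - (c₀ : R) ∈ J) ∧
      ∀ (N : ℕ) [NeZero N], ¬ p ∣ N → ∀ (uA : JZero N →+ JZero N'),
        (∀ (g : GQ) v, uA (g • v) = g • uA v) → ∀ (U : AddSubgroup (JZero N)),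
        (∀ g : GQ, ∀ v ∈ U, g • v ∈ U) → (∀ v ∈ U, m • v = 0) →
        (∀ v ∈ U, heckeOperatorBar N ⟨p, hp⟩ v ∈ U) → ∀ (hUX : ∀ v ∈ U, uA v ∈ X') (v : JZero N)
        (hv : v ∈ U), ((c • (⟨uA v, hUX v hv⟩ : ↥X') : ↥X') : JZero N') =
          uA (heckeOperatorBar N ⟨p, hp⟩ v - (ε * ((p : ℤ) + 1)) • v) := by
  obtain ⟨hdet, hord⟩ := isOrdinaryAt_of_isRhoK hp hp2 hN' hm H hX' hcont hAnnE hmE hE
  obtain ⟨x, ψ, HO⟩ := exists_ordOp ρ _ hord hA
  obtain ⟨δ, hδ, hδ1⟩ := S33.exists_inertia_det_ne_one _ hp hp2 hdet A hA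
  have hδ2 : IsUnit ((ρ δ).det - 1) := by
    rw [← AtP.det_ofMat ρ (matCont_of_cont hcont) δ]
    exact S33.isUnit_det_sub_one hδ1
  have hsD := hs.mem_decompositionSubgroup
  have hID := inertia_le_decomposition A
  obtain ⟨ψ', hψ⟩ := (HO.isUnit hsD).exists_right_inv
  have hεR : (ε : R) * (ε : R) = 1 := by exact_mod_cast congrArg (Int.cast : ℤ → R) hε
  have hcast : (((ε * ((p : ℤ) + 1) : ℤ)) : R) = (ε : R) * ((p : R) + 1) := by push_cast; ring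
  -- the `E`-side
  have hψE : πE (ψ s) = ((ε : ℤ) : ZMod m) := by
    refine piE_psi H hp hm HO hID hδ hδ2 hsD ?_
    have h1 := ann_mul_eq_zero hAnnE (δ := δ) (τ := s)
      (a := (((Rho.chiM m δ).val : ℕ) : ℤ)) (b := ε)
      (fun y => hEs δ hδ y _ fun μ hμ => GAL.cycloChar_spec m δ hμ)
    have e : (rE δ).det = ((((Rho.chiM m δ).val : ℕ) : ℤ) : ZMod m) := by
      rw [E.det, Int.cast_natCast, ZMod.natCast_zmod_val]
    rw [e]
    exact h1
  have hψE' : πE ψ' = ((ε : ℤ) : ZMod m) := by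
    have h1 := congrArg πE hψ
    rw [map_mul, hψE, map_one] at h1
    have h2 : ((ε : ℤ) : ZMod m) * ((ε : ℤ) : ZMod m) = 1 := by
      exact_mod_cast congrArg (Int.cast : ℤ → ZMod m) hε
    calc πE ψ' = (((ε : ℤ) : ZMod m) * ((ε : ℤ) : ZMod m)) * πE ψ' := by rw [h2, one_mul]
      _ = ((ε : ℤ) : ZMod m) * (((ε : ℤ) : ZMod m) * πE ψ') := by ring
      _ = _ := by rw [h1, mul_one]
  refine ⟨ψ s + p * ψ' - ((ε * ((p : ℤ) + 1) : ℤ) : R), ?_, fun J hJ => ?_, ?_⟩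
  · rw [map_sub, map_add, map_mul, hψE, hψE', map_natCast, map_intCast]
    push_cast
    ring
  · rw [hcast] at hJ
    exact exists_trace_sub_mem H hm HO hsD hψ hε hJ
  · intro N _ hpN uA huA U hUG hUm hUT hUX v hv
    have h1 := tp_up H (adjoin_range_rhoK E H) hp hp2 hpN hm uA huA U hUG hUm hUT hUX hA hs HO hδ
      hδ2 hψ hv
    rw [sub_smul, AddSubgroup.coe_sub, h1, Int.cast_smul_eq_zsmul, AddSubgroup.coe_zsmul, map_sub,
      map_zsmul]

end Up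

end Fermat.Agent.ML.TP
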