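import Fermat.Agent.RIB.Hard.Alg

/-!
# ML / AtP / TP / Alg : the algebra of `[TP-RHO]`

`R` a commutative ring, `V` an `R`-module, `Φ : M₂(R) →ₐ[R] End_R V`, `ρ : G →* M₂(R)` spanning `M₂(R)`.
`Tp` an `R`-linear endomorphism of `V` commuting with the `Φ (ρ g)`, `I ⊆ G`, `s ∈ G`.

* `tp_abs` : if `Tp v - s v - p s⁻¹ v ∈ ∑_{τ ∈ I} (τ - 1) V` for all `v`, and `U ∈ M₂(R)` has a unit entry,
  `U (ρ τ - 1) = 0` (`τ ∈ I`), `U ρ(s) = ψ U`, `ψ ψ' = 1`, then `Tp = ψ + p ψ'` on `V`.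
* `exists_unit_entry` : `U = ρ(δ) - c`, `c = det ρ(δ)`, `c - 1` a unit, `R` local : some entry of `U` is a unit.
* `ordU` : the hypotheses on `U = ρ(δ) - det ρ(δ)` from the operator form of "ordinary".
-/

set_option autoImplicit false

namespace Fermat.Agent.ML.TP

open Matrix

local notation "M₂" => Matrix (Fin 2) (Fin 2)

section Abs

variable {R V G : Type*} [CommRing R] [AddCommGroup V] [Module R V] [Group G]
  (Φ : M₂ R →ₐ[R] Module.End R V) (ρ : G →* M₂ R)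

/-- a linear map `t` commuting with `Φ` such that `Φ U ∘ t = 0`, `U` with a unit entry, is `0`. -/
theorem eq_zero_of_phi_comp (t : V →ₗ[R] V) (ht : ∀ (A : M₂ R) (x : V), t (Φ A x) = Φ A (t x))
    (U : M₂ R) (hU : ∀ x, Φ U (t x) = 0) {i j : Fin 2} (hu : IsUnit (U i j)) (x : V) : t x = 0 := by
  have h1 : U i j • t x = 0 :=
    RIB.entry_smul_eq_zero Φ (LinearMap.range t)
      (by
        rintro A _ ⟨y, rfl⟩
        exact ⟨Φ A y, ht A y⟩) U
      (by
        rintro _ ⟨y, rfl⟩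
        exact hU y) i j ⟨x, rfl⟩
  obtain ⟨w, hw⟩ := hu.exists_left_inv
  calc t x = (w * U i j) • t x := by rw [hw, one_smul]
    _ = 0 := by rw [mul_smul, h1, smul_zero]

/-- **[TP-RHO]**, abstract form. -/
theorem tp_abs (hspan : Algebra.adjoin R (Set.range ρ) = ⊤) (I : Set G) (s : G) (p : ℕ)
    (Tp : V →ₗ[R] V) (hTg : ∀ g x, Tp (Φ (ρ g) x) = Φ (ρ g) (Tp x))
    (hES : ∀ v, Tp v - Φ (ρ s) v - p • Φ (ρ s⁻¹) v ∈
      AddSubgroup.closure {w : V | ∃ τ ∈ I, ∃ z : V, w = Φ (ρ τ) z - z})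
    (U : M₂ R) (hUI : ∀ τ ∈ I, U * (ρ τ - 1) = 0) (ψ ψ' : R) (hψ : ψ * ψ' = 1)
    (hUs : U * ρ s = ψ • U) {i j : Fin 2} (hu : IsUnit (U i j)) (v : V) :
    Tp v = (ψ + p * ψ') • v := by
  have hcomm := RIB.Hard.map_phi_comm Φ ρ hspan Tp hTg
  have hUs' : U * ρ s⁻¹ = ψ' • U := by
    have h1 : ρ s * ρ s⁻¹ = 1 := by rw [← map_mul, mul_inv_cancel, map_one]
    calc U * ρ s⁻¹ = (ψ' * ψ) • (U * ρ s⁻¹) := by rw [mul_comm, hψ, one_smul]
      _ = ψ' • ((ψ • U) * ρ s⁻¹) := by rw [mul_smul, smul_mul_assoc]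
      _ = ψ' • U := by rw [← hUs, mul_assoc, h1, mul_one]
  have hker : ∀ w ∈ AddSubgroup.closure {w : V | ∃ τ ∈ I, ∃ z : V, w = Φ (ρ τ) z - z},
      Φ U w = 0 := by
    intro w hw
    induction hw using AddSubgroup.closure_induction with
    | mem w hw =>
      obtain ⟨τ, hτ, z, rfl⟩ := hw
      have h1 : Φ (ρ τ) z - z = Φ (ρ τ - 1) z := by
        rw [map_sub, map_one, LinearMap.sub_apply, Module.End.one_apply]
      rw [h1, ← Module.End.mul_apply, ← map_mul, hUI τ hτ, map_zero, LinearMap.zero_apply]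
    | zero => rw [map_zero]
    | add a b _ _ ha hb => rw [map_add, ha, hb, add_zero]
    | neg a _ ha => rw [map_neg, ha, neg_zero]
  set t : V →ₗ[R] V := Tp - (ψ + p * ψ') • LinearMap.id with ht
  have htx : ∀ x, t x = Tp x - (ψ + p * ψ') • x := fun x => rfl
  have h0 : t v = 0 := by
    refine eq_zero_of_phi_comp Φ t (fun A x => ?_) U (fun x => ?_) hu v
    · rw [htx, htx, hcomm, map_sub, map_smul]
    · have h1 := hker _ (hES x)
      have e1 : Φ U (Φ (ρ s) x) = ψ • Φ U x := by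
        rw [← Module.End.mul_apply, ← map_mul, hUs, map_smul, LinearMap.smul_apply]
      have e2 : Φ U (Φ (ρ s⁻¹) x) = ψ' • Φ U x := by
        rw [← Module.End.mul_apply, ← map_mul, hUs', map_smul, LinearMap.smul_apply]
      rw [map_sub, map_sub, map_nsmul, e1, e2] at h1
      rw [htx, map_sub, map_smul, add_smul, mul_smul, Nat.cast_smul_eq_nsmul]
      rw [← h1]
      abel
  rw [htx, sub_eq_zero] at h0
  exact h0

end Abs

section Unit

variable {R : Type*} [CommRing R] [IsLocalRing R]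

/-- `A ∈ M₂(R)`, `R` local, `c = det A` a unit with `c - 1` a unit : some entry of `A - c` is a unit. -/
theorem exists_unit_entry (A : M₂ R) (hc : IsUnit A.det) (hc1 : IsUnit (A.det - 1)) :
    ∃ i j : Fin 2, IsUnit ((A - A.det • (1 : M₂ R)) i j) := by
  by_contra hcon
  push Not at hcon
  have hm : ∀ i j, (A - A.det • (1 : M₂ R)) i j ∈ IsLocalRing.maximalIdeal R := fun i j =>
    (IsLocalRing.mem_maximalIdeal _).2 (hcon i j)
  have h00 := hm 0 0
  have h01 := hm 0 1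
  have h11 := hm 1 1
  simp only [Matrix.sub_apply, Matrix.smul_apply, Matrix.one_apply_eq, smul_eq_mul, mul_one,
    Matrix.one_apply_ne (show (0 : Fin 2) ≠ 1 by decide), mul_zero, sub_zero] at h00 h01 h11
  set c := A.det with hcdef
  -- `c = A00 A11 - A01 A10 ≡ c²`
  have key : c * (c - 1) ∈ IsLocalRing.maximalIdeal R := by
    have e : c * (c - 1) = -((A 0 0 - c) * A 1 1) - c * (A 1 1 - c) + A 0 1 * A 1 0 := by
      have hd : c = A 0 0 * A 1 1 - A 0 1 * A 1 0 := by rw [hcdef, Matrix.det_fin_two]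
      linear_combination (-1 : R) * hd
    rw [e]
    exact Ideal.add_mem _ (Ideal.sub_mem _ (Ideal.neg_mem_iff _ |>.2 (Ideal.mul_mem_right _ _ h00))
      (Ideal.mul_mem_left _ _ h11)) (Ideal.mul_mem_right _ _ h01)
  exact (IsLocalRing.mem_maximalIdeal _).1 key (hc.mul hc1)

end Unit

end Fermat.Agent.ML.TP
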