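import Fermat.Agent.MAZ.Geo.Basic
import Fermat.Agent.S33.NT
import Fermat.Agent.ML.AtP.Conn

/-!
# ML / AtP / TP : the Eichler-Shimura relation AT `p` and its consequence `[TP-ES]`

`p ∤ N`, `A` a place of `ℚ̄` over `p`, `I = I_A`, `s` a Frobenius lift at `A`,
`redJ = red_A ∘ B^*` (the reduction map of S37, `MAZ.redJ N p A`).

* `redJ_inertia`, `redJ_frob`, `redJ_hecke` : the three relations of S37, valid for ALL `x`
  (in S37 only the injectivity of `redJ` on torsion uses that the torsion is prime to `ℓ`);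
* `redJ_es` : `redJ (T_p x - s x - p s⁻¹ x) = 0`;
* `NonConn N p A` : the statement `[NONCONN]` (an `I`-stable subgroup of `ker redJ ∩ J[p^k]`
  has no trivial quotient);
* `tp_es_of` : `[TP-ES]` from `NonConn` : for `X ≤ J₀(N)[p^k]` stable under `I`, `s`, `s⁻¹`, `T_p` :
  `T_p x - s x - p s⁻¹ x ∈ aug I X`;
* `nonConn` (helper39's `AtP.nonconn`), `tp_es` : the unconditional form, `p` odd.
-/

set_option autoImplicit false

noncomputable section

namespace Fermat.Agent.ML.TP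

open ModularCurve AlgebraicCurve
open Fermat.Agent.FLAT (Qb GQ)
open Fermat.Agent.RED (aux Bstar heckeInputsAlong')
open Fermat.Agent.MAZ (redJ)

variable {N p : ℕ} [NeZero N]

/-- `redJ` kills the inertia action. -/
theorem redJ_inertia (hp : p.Prime) (hpN : ¬ p ∣ N) (A : ValuationSubring Qb)
    (hA : A.LiesOverPrime p) {τ : GQ} (hτ : τ ∈ A.inertiaSubgroupIn ℚ) (x : JZero N) :
    redJ N p A (τ • x) = redJ N p A x := by
  have : Fact p.Prime := ⟨hp⟩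
  have hpN' : ¬ p ∣ N * aux p := RED.not_dvd_mul_aux hp hpN
  have h : ReductionInputsModL A (N * aux p) := RED.reductionInputsModL_aux N hpN A hA
  obtain ⟨hτ', hrefl⟩ := RED.resAut_eq_refl_of_mem_inertia hτ
  rw [MAZ.redJ_apply, MAZ.redJ_apply, RED.Bstar_smul,
    RED.reductionModL_smul (N * aux p) hpN' A hA h τ hτ', hrefl, RED.coeffAut_refl, one_smul]

/-- the Frobenius automorphism of `Pic⁰` of the reduction attached to a Frobenius lift. -/
def frobC (N p : ℕ) (A : ValuationSubring Qb) {s : GQ} (hs : A.IsFrobeniusAt s p) :=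
  RED.coeffAut (IsLocalRing.ResidueField A) (N * aux p)
    (RED.resAut A s hs.mem_decompositionSubgroup)

theorem redJ_frob (hp : p.Prime) (hpN : ¬ p ∣ N) (A : ValuationSubring Qb)
    (hA : A.LiesOverPrime p) {s : GQ} (hs : A.IsFrobeniusAt s p) (x : JZero N) :
    redJ N p A (s • x) = frobC N p A hs • redJ N p A x := by
  have : Fact p.Prime := ⟨hp⟩
  have hpN' : ¬ p ∣ N * aux p := RED.not_dvd_mul_aux hp hpN
  have h : ReductionInputsModL A (N * aux p) := RED.reductionInputsModL_aux N hpN A hA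
  rw [MAZ.redJ_apply, MAZ.redJ_apply, RED.Bstar_smul,
    RED.reductionModL_smul (N * aux p) hpN' A hA h s hs.mem_decompositionSubgroup]
  rfl

theorem redJ_hecke (hp : p.Prime) (hpN : ¬ p ∣ N) (A : ValuationSubring Qb)
    (hA : A.LiesOverPrime p) {s : GQ} (hs : A.IsFrobeniusAt s p) (x : JZero N) :
    redJ N p A (heckeOperatorBar N ⟨p, hp⟩ x) =
      frobC N p A hs • redJ N p A x + p • ((frobC N p A hs)⁻¹ • redJ N p A x) := by
  have : Fact p.Prime := ⟨hp⟩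
  have hpN' : ¬ p ∣ N * aux p := RED.not_dvd_mul_aux hp hpN
  have h : ReductionInputsModL A (N * aux p) := RED.reductionInputsModL_aux N hpN A hA
  have hφ : ∀ x, RED.resAut A s hs.mem_decompositionSubgroup x = x ^ p := fun x => by
    rw [RED.resAut_apply, hs.smul_residue_eq]
  rw [MAZ.redJ_apply, MAZ.redJ_apply,
    RED.reduction_hecke hp N (aux p) hpN' A hA (heckeInputsAlong' N (aux p)) h _ hφ x]
  rfl

/-- Eichler-Shimura at `p`, on the whole of `J₀(N)(ℚ̄)`. -/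
theorem redJ_es (hp : p.Prime) (hpN : ¬ p ∣ N) (A : ValuationSubring Qb)
    (hA : A.LiesOverPrime p) {s : GQ} (hs : A.IsFrobeniusAt s p) (x : JZero N) :
    redJ N p A (heckeOperatorBar N ⟨p, hp⟩ x - s • x - p • (s⁻¹ • x)) = 0 := by
  have h1 : redJ N p A (s⁻¹ • x) = (frobC N p A hs)⁻¹ • redJ N p A x := by
    rw [eq_inv_smul_iff, ← redJ_frob hp hpN A hA hs, smul_inv_smul]
  rw [map_sub, map_sub, map_nsmul, redJ_hecke hp hpN A hA hs, redJ_frob hp hpN A hA hs, h1]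
  abel

/-- the statement `[NONCONN]`. -/
def NonConn (N p : ℕ) [NeZero N] (A : ValuationSubring Qb) : Prop :=
  ∀ (k : ℕ) (Z : AddSubgroup (JZero N)), S33.Stable (A.inertiaSubgroupIn ℚ) Z →
    (∀ z ∈ Z, p ^ k • z = 0 ∧ redJ N p A z = 0) → ∀ z ∈ Z, z ∈ S33.aug (A.inertiaSubgroupIn ℚ) Z

/-- `[TP-ES]` from `[NONCONN]`. -/
theorem tp_es_of (hp : p.Prime) (hpN : ¬ p ∣ N) (A : ValuationSubring Qb)
    (hA : A.LiesOverPrime p) (hNC : NonConn N p A) {s : GQ} (hs : A.IsFrobeniusAt s p)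
    (k : ℕ) (X : AddSubgroup (JZero N)) (hXk : ∀ x ∈ X, p ^ k • x = 0)
    (hXI : S33.Stable (A.inertiaSubgroupIn ℚ) X)
    (hXs : ∀ x ∈ X, s • x ∈ X) (hXs' : ∀ x ∈ X, s⁻¹ • x ∈ X)
    (hXT : ∀ x ∈ X, heckeOperatorBar N ⟨p, hp⟩ x ∈ X) :
    ∀ x ∈ X, heckeOperatorBar N ⟨p, hp⟩ x - s • x - p • (s⁻¹ • x) ∈
      S33.aug (A.inertiaSubgroupIn ℚ) X := by
  intro x hx
  have hst : S33.Stable (A.inertiaSubgroupIn ℚ) (X ⊓ (redJ N p A).ker) := by
    intro τ hτ z hz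
    refine ⟨hXI τ hτ z hz.1, ?_⟩
    show redJ N p A (τ • z) = 0
    rw [redJ_inertia hp hpN A hA hτ]
    exact hz.2
  have h1 := hNC k (X ⊓ (redJ N p A).ker) hst (fun z hz => ⟨hXk z hz.1, hz.2⟩)
    (heckeOperatorBar N ⟨p, hp⟩ x - s • x - p • (s⁻¹ • x))
    ⟨X.sub_mem (X.sub_mem (hXT x hx) (hXs x hx)) (X.nsmul_mem (hXs' x hx) p),
      redJ_es hp hpN A hA hs x⟩
  exact S33.aug_mono inf_le_left h1

/-- `[NONCONN]` (helper39). -/
theorem nonConn (hp : p.Prime) (hp2 : p ≠ 2) (hpN : ¬ p ∣ N) (A : ValuationSubring Qb)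
    (hA : A.LiesOverPrime p) : NonConn N p A := by
  have : Fact p.Prime := ⟨hp⟩
  intro k Z hZ h z hz
  exact AtP.nonconn hp2 hpN k A hA Z hZ (fun z hz => (h z hz).1) (fun z hz => (h z hz).2) hz

/-- **[TP-ES]** : `p` odd, `p ∤ N`, `A ∣ p`, `s` a Frobenius lift at `A`, `X ≤ J₀(N)[p^k]` stable under `I_A`, `s`, `s⁻¹`, `T_p` :
`T_p = s + p s⁻¹` on the `I_A`-coinvariants of `X`. -/
theorem tp_es (hp : p.Prime) (hp2 : p ≠ 2) (hpN : ¬ p ∣ N) (A : ValuationSubring Qb)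
    (hA : A.LiesOverPrime p) {s : GQ} (hs : A.IsFrobeniusAt s p)
    (k : ℕ) (X : AddSubgroup (JZero N)) (hXk : ∀ x ∈ X, p ^ k • x = 0)
    (hXI : S33.Stable (A.inertiaSubgroupIn ℚ) X)
    (hXs : ∀ x ∈ X, s • x ∈ X) (hXs' : ∀ x ∈ X, s⁻¹ • x ∈ X)
    (hXT : ∀ x ∈ X, heckeOperatorBar N ⟨p, hp⟩ x ∈ X) :
    ∀ x ∈ X, heckeOperatorBar N ⟨p, hp⟩ x - s • x - p • (s⁻¹ • x) ∈
      S33.aug (A.inertiaSubgroupIn ℚ) X :=
  tp_es_of hp hpN A hA (nonConn hp hp2 hpN A hA) hs k X hXk hXI hXs hXs' hXT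

end Fermat.Agent.ML.TP
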