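import Fermat.Agent.ML.AtP.TP.ES
import Fermat.Agent.ML.AtP.TP.Alg
import Fermat.Agent.ML.AtP.Op

/-!
# ML / AtP / TP / Main : `[TP-RHO]`   `T_p = ψ(s) + p ψ(s)⁻¹` on `X ≤ J₀(L)[p^k]`, `p ∤ L`

* `exists_ordOp` : the operator form of `IsOrdinaryAt` : `(ρ σ - x σ)(ρ τ - ψ τ) = 0`, `σ τ ∈ D`, `ψ = 1` on `I`, `det ρ σ = x σ ψ σ`.
* `OrdOp.exists_inv`, `tp_abs_ordOp` : `tp_abs` with `U = ρ δ - det ρ δ`.
* `EK.adjoin_range`, `adjoin_range_rhoK` : `ρ` spans `M₂(R)` for the joint (RHO).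
* `tp_rhoK_U`, `tp_rhoK` : **[TP-RHO]** for `Rho.IsRhoK L m X rE πE ρ Φ`.
* `cp_factor` : `ψ + p ψ' - ε (p + 1) = (ψ - ε)(1 - p ε ψ')`.
-/

set_option autoImplicit false
set_option linter.unusedSectionVars false

noncomputable section

namespace Fermat.Agent.ML.TP

open ModularCurve AlgebraicCurve Matrix
open Fermat.Agent.S53 Fermat.Agent.RIB Fermat.Agent.RIB.Rho

local notation "Qbar" => AlgebraicClosure ℚ
local notation "M₂" => Matrix (Fin 2) (Fin 2)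

/-! ### the operator form of "ordinary" -/

/-- the operator form of "ordinary" on `D ⊇ I`. -/
structure OrdOp {R G : Type*} [CommRing R] [Group G] (ρ : G →* M₂ R) (D I : Subgroup G)
    (x ψ : G → R) : Prop where
  one : ∀ σ ∈ I, ψ σ = 1
  det : ∀ σ ∈ D, (ρ σ).det = x σ * ψ σ
  op : ∀ σ ∈ D, ∀ τ ∈ D, (ρ σ - x σ • (1 : M₂ R)) * (ρ τ - ψ τ • (1 : M₂ R)) = 0

section Ord

variable {R : Type} [CommRing R] [IsLocalRing R]

/-- the operator form of `IsOrdinaryAt`. -/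
theorem exists_ordOp {p : ℕ} (ρ : GQ →* M2 R) (hc : MatCont R ρ)
    (hord : (ofMat ρ hc).IsOrdinaryAt p) {P : ValuationSubring Qbar} (hP : P.LiesOverPrime p) :
    ∃ x ψ : GQ → R, OrdOp ρ (P.decompositionSubgroup ℚ) (P.inertiaSubgroupIn ℚ) x ψ := by
  set ρ₁ := ofMat ρ hc with hρ₁
  obtain ⟨L, ⟨b, rfl⟩, hD, hI⟩ := hord P hP
  have hb0 : b 0 ∈ Submodule.span R {b 0} := Submodule.mem_span_singleton_self _
  have h11 : b.repr (b 1) 1 = 1 := by rw [b.repr_self, Finsupp.single_eq_same]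
  have hx : ∀ σ : GQ, ∃ x : R, σ ∈ P.decompositionSubgroup ℚ → ρ₁.ρ σ (b 0) = x • b 0 := by
    intro σ
    by_cases hσ : σ ∈ P.decompositionSubgroup ℚ
    · obtain ⟨x, hx⟩ := Submodule.mem_span_singleton.1 (hD σ hσ _ hb0)
      exact ⟨x, fun _ => hx.symm⟩
    · exact ⟨0, fun h => absurd h hσ⟩
  choose x hx using hx
  refine ⟨x, fun σ => b.repr (ρ₁.ρ σ (b 1)) 1, fun σ hσ => ?_, fun σ hσ => ?_,
    fun σ hσ τ hτ => ?_⟩
  · have h1 := (AtP.mem_span_iff_repr ρ₁ b _).1 (hI σ hσ (b 1))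
    rwa [map_sub, Finsupp.sub_apply, h11, sub_eq_zero] at h1
  · have e1 : ρ₁.ρ σ (b 1) = b.repr (ρ₁.ρ σ (b 1)) 0 • b 0 + b.repr (ρ₁.ρ σ (b 1)) 1 • b 1 := by
      conv_lhs => rw [← b.sum_repr (ρ₁.ρ σ (b 1)), Fin.sum_univ_two]
    rw [← AtP.det_ofMat ρ hc σ]
    exact AtP.det_of_tri ρ₁ b _ (hx σ hσ) e1
  · apply Matrix.toLin'.injective
    refine LinearMap.ext fun v => ?_
    rw [Matrix.toLin'_apply, map_zero, LinearMap.zero_apply, ← Matrix.mulVec_mulVec,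
      Matrix.sub_mulVec, Matrix.sub_mulVec, Matrix.smul_mulVec, Matrix.smul_mulVec,
      Matrix.one_mulVec, Matrix.one_mulVec, sub_eq_zero]
    have hmem : ρ₁.ρ τ v - b.repr (ρ₁.ρ τ (b 1)) 1 • v ∈ Submodule.span R {b 0} := by
      rw [AtP.mem_span_iff_repr]
      conv_lhs => rw [← b.sum_repr v, Fin.sum_univ_two]
      rw [map_add, map_smul, map_smul, map_sub, map_add, map_smul, map_smul, map_smul, map_add,
        map_smul, map_smul, Finsupp.sub_apply, Finsupp.add_apply, Finsupp.smul_apply,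
        Finsupp.smul_apply, Finsupp.smul_apply, Finsupp.add_apply, Finsupp.smul_apply,
        Finsupp.smul_apply, (AtP.mem_span_iff_repr ρ₁ b _).1 (hD τ hτ _ hb0), b.repr_self,
        b.repr_self, Finsupp.single_eq_of_ne (by decide), Finsupp.single_eq_same]
      simp only [smul_eq_mul]
      ring
    obtain ⟨a, ha⟩ := Submodule.mem_span_singleton.1 hmem
    show ρ₁.ρ σ (ρ₁.ρ τ v - b.repr (ρ₁.ρ τ (b 1)) 1 • v) = _
    rw [← ha, map_smul, hx σ hσ, smul_comm, ha]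
    rfl

end Ord

/-! ### `tp_abs` for `U = ρ δ - det ρ δ` -/

section AbsOp

variable {R V G : Type*} [CommRing R] [IsLocalRing R] [AddCommGroup V] [Module R V] [Group G]
  (Φ : M₂ R →ₐ[R] Module.End R V) (ρ : G →* M₂ R)

theorem isUnit_det_rho (g : G) : IsUnit (ρ g).det :=
  (Matrix.isUnit_iff_isUnit_det _).1 ((Group.isUnit g).map ρ)

/-- `ψ σ` is a unit. -/
theorem OrdOp.isUnit {ρ : G →* M₂ R} {D I : Subgroup G} {x ψ : G → R} (H : OrdOp ρ D I x ψ) {σ : G}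
    (hσ : σ ∈ D) : IsUnit (ψ σ) := by
  have h := isUnit_det_rho ρ σ
  rw [H.det σ hσ] at h
  exact isUnit_of_mul_isUnit_right h

/-- **[TP-RHO]**, abstract form, from the operator form of "ordinary". -/
theorem tp_abs_ordOp (hspan : Algebra.adjoin R (Set.range ρ) = ⊤) {D I : Subgroup G} {x ψ : G → R}
    (H : OrdOp ρ D I x ψ) (hID : I ≤ D) {δ : G} (hδ : δ ∈ I) (hδ1 : IsUnit ((ρ δ).det - 1))
    {s : G} (hs : s ∈ D) (p : ℕ)
    (Tp : V →ₗ[R] V) (hTg : ∀ g x, Tp (Φ (ρ g) x) = Φ (ρ g) (Tp x))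
    (hES : ∀ v, Tp v - Φ (ρ s) v - p • Φ (ρ s⁻¹) v ∈
      AddSubgroup.closure {w : V | ∃ τ ∈ (I : Set G), ∃ z : V, w = Φ (ρ τ) z - z})
    {ψ' : R} (hψ : ψ s * ψ' = 1) (v : V) : Tp v = (ψ s + p * ψ') • v := by
  have hx : x δ = (ρ δ).det := by rw [H.det δ (hID hδ), H.one δ hδ, mul_one]
  obtain ⟨i, j, hu⟩ := exists_unit_entry (ρ δ) (isUnit_det_rho ρ δ) hδ1
  refine tp_abs Φ ρ hspan (I : Set G) s p Tp hTg hES (ρ δ - (ρ δ).det • (1 : M₂ R))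
    (fun τ hτ => ?_) (ψ s) ψ' hψ ?_ hu v
  · have := H.op δ (hID hδ) τ (hID hτ)
    rwa [hx, H.one τ hτ, one_smul] at this
  · have := H.op δ (hID hδ) s hs
    rw [hx, mul_sub, sub_eq_zero, mul_smul_comm, mul_one] at this
    exact this

end AbsOp

/-- `c_p = ψ + p ψ⁻¹ - ε (p + 1) = (ψ - ε)(1 - p ε ψ⁻¹)`. -/
theorem cp_factor {R : Type*} [CommRing R] {ψ ψ' ε : R} (p : R) (hψ : ψ * ψ' = 1) (hε : ε * ε = 1) :
    ψ + p * ψ' - ε * (p + 1) = (ψ - ε) * (1 - p * ε * ψ') := by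
  linear_combination (p * ε) * hψ + (-p * ψ') * hε

/-! ### spanning for the joint (RHO) -/

section Span

open Fermat.Agent.GAL Fermat.Agent.GAL.PC Fermat.Agent.TW.TR Fermat.Agent.ML.Rho

variable {m : ℕ} [NeZero m]

theorem EK.adjoin_range {T : Finset ℕ} {a : ℕ → ℤ} {rE : GQ →* M₂ (ZMod m)} (E : EK m T a rE) :
    Algebra.adjoin (ZMod m) (Set.range rE) = ⊤ := by
  obtain ⟨i2, σ₀, τ₀, u, hi2, hu, hnf⟩ := E.nf
  have hps : IsPseudo (fun g => (rE g).trace) (chiM m) := by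
    refine isPseudo_of_spec (E := M₂ (ZMod m)) (γ := rE) (fun g => ?_) ?_
    · rw [← E.det, Algebra.algebraMap_eq_smul_one]
      exact Hard.add_det_smul_inv (rE g) (rE g⁻¹) (by rw [← map_mul, mul_inv_cancel, map_one])
    · intro c d hcd
      have := congrFun (congrFun hcd 0) 0
      simpa [Matrix.algebraMap_matrix_apply] using this
  exact Hard.adjoin_range_rhoMat_eq_top hps hi2 complexConjugation_mul_self
    (cycloChar_complexConjugation m) hu rE hnf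

theorem adjoin_range_rhoK {L : ℕ} [NeZero L] {T : Finset ℕ} {a : ℕ → ℤ} {rE : GQ →* M₂ (ZMod m)}
    (E : EK m T a rE) {X : AddSubgroup (JZero L)} {R : Type} [CommRing R] [IsLocalRing R]
    [Algebra (ZMod m) R] [Module R ↥X] {πE : R →ₐ[ZMod m] ZMod m} {ρ : GQ →* M₂ R}
    {Φ : M₂ R →ₐ[R] Module.End R ↥X} (H : Rho.IsRhoK L m X rE πE ρ Φ) :
    Algebra.adjoin R (Set.range ρ) = ⊤ := by
  refine Hard.adjoin_range_eq_top_of_residual (πE : R →+* ZMod m) (fun c => ⟨algebraMap _ R c, ?_⟩)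
    (fun x hx => ?_) ρ rE H.toE (EK.adjoin_range E)
  · exact πE.commutes c
  · rw [IsLocalRing.mem_maximalIdeal, mem_nonunits_iff]
    intro hu
    obtain ⟨n, hn⟩ := H.nil x hx
    exact not_isUnit_zero (hn ▸ hu.pow n)

end Span

/-! ### the concrete form, for an abstract module embedded in `J₀(L)` -/

section Lin

variable {k R V G : Type*} [CommRing k] [CommRing R] [Algebra k R] [AddCommGroup V] [Module R V]
  [Group G] (Φ : M₂ R →ₐ[R] Module.End R V) (ρ : G →* M₂ R)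

/-- an additive map commuting with `G` and `k` is `R`-linear if `R` is generated over `k` by the traces. -/
theorem map_smul_of_tr (htr : Algebra.adjoin k (Set.range fun g : G => (ρ g).trace) = ⊤)
    (hdet : ∀ g, ∃ c : k, (ρ g).det = algebraMap k R c) (w : V →+ V)
    (hwk : ∀ (c : k) (x : V), w (algebraMap k R c • x) = algebraMap k R c • w x)
    (hwg : ∀ g x, w (Φ (ρ g) x) = Φ (ρ g) (w x)) (r : R) (x : V) : w (r • x) = r • w x := by
  have hr : r ∈ Algebra.adjoin k (Set.range fun g : G => (ρ g).trace) := by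
    rw [htr]; exact Algebra.mem_top
  induction hr using Algebra.adjoin_induction generalizing x with
  | mem a ha =>
    obtain ⟨g, rfl⟩ := ha
    obtain ⟨c, hc⟩ := hdet g
    have h := Hard.add_det_smul_inv (ρ g) (ρ g⁻¹) (by rw [← map_mul, mul_inv_cancel, map_one])
    have h2 : ∀ y : V, (ρ g).trace • y = Φ (ρ g) y + algebraMap k R c • Φ (ρ g⁻¹) y := by
      intro y
      calc (ρ g).trace • y = Φ ((ρ g).trace • (1 : M₂ R)) y := by
            rw [map_smul, map_one, LinearMap.smul_apply, Module.End.one_apply]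
        _ = Φ (ρ g) y + (ρ g).det • Φ (ρ g⁻¹) y := by
            rw [← h, map_add, map_smul, LinearMap.add_apply, LinearMap.smul_apply]
        _ = _ := by rw [hc]
    show w ((ρ g).trace • x) = (ρ g).trace • w x
    rw [h2, h2, map_add, hwk, hwg, hwg]
  | algebraMap c => exact hwk c x
  | add a b _ _ ha hb => rw [add_smul, add_smul, map_add, ha, hb]
  | mul a b _ _ ha hb => rw [mul_smul, mul_smul, ha, hb]

end Lin

section Emb

variable {L p : ℕ} [NeZero L] {R V : Type*} [CommRing R] [AddCommGroup V] [Module R V]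
  (Φ : M₂ R →ₐ[R] Module.End R V) (ρ : GQ →* M₂ R) (j : V →+ JZero L)

/-- transport of `S33.aug` along `j`. -/
theorem mem_closure_of_mem_aug (hact : ∀ g v, j (Φ (ρ g) v) = g • j v) (I : Subgroup GQ)
    {w : JZero L} (hw : w ∈ S33.aug I j.range) : ∃ v : V, j v = w ∧ v ∈
      AddSubgroup.closure {w : V | ∃ τ ∈ (I : Set GQ), ∃ z : V, w = Φ (ρ τ) z - z} := by
  unfold S33.aug at hw
  induction hw using AddSubgroup.closure_induction with
  | mem w hw =>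
    obtain ⟨τ, hτ, _, ⟨z, rfl⟩, rfl⟩ := hw
    exact ⟨Φ (ρ τ) z - z, by rw [map_sub, hact], AddSubgroup.subset_closure ⟨τ, hτ, z, rfl⟩⟩
  | zero => exact ⟨0, map_zero j, AddSubgroup.zero_mem _⟩
  | add a b _ _ ha hb =>
    obtain ⟨a', rfl, ha2⟩ := ha
    obtain ⟨b', rfl, hb2⟩ := hb
    exact ⟨a' + b', map_add j a' b', AddSubgroup.add_mem _ ha2 hb2⟩
  | neg a _ ha =>
    obtain ⟨a', rfl, ha2⟩ := ha
    exact ⟨-a', map_neg j a', AddSubgroup.neg_mem _ ha2⟩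

/-- `[TP-ES]` on `V`. -/
theorem tp_es_emb (hj : Function.Injective j) (hact : ∀ g v, j (Φ (ρ g) v) = g • j v)
    (hp : p.Prime) (hp2 : p ≠ 2) (hpL : ¬ p ∣ L) (k : ℕ) (hV : ∀ v, p ^ k • j v = 0)
    (Tp : V → V) (hTp : ∀ v, j (Tp v) = heckeOperatorBar L ⟨p, hp⟩ (j v))
    {A : ValuationSubring Qbar} (hA : A.LiesOverPrime p) {s : GQ} (hs : A.IsFrobeniusAt s p)
    (v : V) : Tp v - Φ (ρ s) v - p • Φ (ρ s⁻¹) v ∈
      AddSubgroup.closure {w : V | ∃ τ ∈ ((A.inertiaSubgroupIn ℚ : Subgroup GQ) : Set GQ),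
        ∃ z : V, w = Φ (ρ τ) z - z} := by
  have hst : ∀ (g : GQ), ∀ x ∈ j.range, g • x ∈ j.range := by
    rintro g _ ⟨z, rfl⟩
    exact ⟨Φ (ρ g) z, hact g z⟩
  have h1 := tp_es hp hp2 hpL A hA hs k j.range
    (by rintro _ ⟨z, rfl⟩; exact hV z) (fun τ _ z hz => hst τ z hz) (hst s) (hst s⁻¹)
    (by rintro _ ⟨z, rfl⟩; exact ⟨Tp z, hTp z⟩) (j v) ⟨v, rfl⟩
  obtain ⟨v', h2, h3⟩ := mem_closure_of_mem_aug Φ ρ j hact _ h1
  have e : Tp v - Φ (ρ s) v - p • Φ (ρ s⁻¹) v = v' := by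
    apply hj
    rw [h2, map_sub, map_sub, map_nsmul, hTp, hact, hact]
  rw [e]
  exact h3

/-- **[TP-RHO]**, `U`-form, for a module embedded in `J₀(L)[p^k]`. -/
theorem tp_emb_U (hj : Function.Injective j) (hact : ∀ g v, j (Φ (ρ g) v) = g • j v)
    (hspan : Algebra.adjoin R (Set.range ρ) = ⊤)
    (hp : p.Prime) (hp2 : p ≠ 2) (hpL : ¬ p ∣ L) (k : ℕ) (hV : ∀ v, p ^ k • j v = 0)
    (Tp : V →ₗ[R] V) (hTp : ∀ v, j (Tp v) = heckeOperatorBar L ⟨p, hp⟩ (j v))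
    {A : ValuationSubring Qbar} (hA : A.LiesOverPrime p) {s : GQ} (hs : A.IsFrobeniusAt s p)
    (U : M₂ R) (hUI : ∀ τ ∈ A.inertiaSubgroupIn ℚ, U * (ρ τ - 1) = 0) (ψ ψ' : R)
    (hψ : ψ * ψ' = 1) (hUs : U * ρ s = ψ • U) {i i' : Fin 2} (hu : IsUnit (U i i')) (v : V) :
    Tp v = (ψ + p * ψ') • v := by
  refine tp_abs Φ ρ hspan _ s p Tp (fun g x => hj ?_)
    (tp_es_emb Φ ρ j hj hact hp hp2 hpL k hV Tp hTp hA hs) U hUI ψ ψ' hψ hUs hu v
  rw [hTp, hact, hact, hTp]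
  exact (GAL.galHecke L ⟨p, hp⟩ g (j x)).symm

/-- **[TP-RHO]** from the operator form of "ordinary", for a module embedded in `J₀(L)[p^k]`. -/
theorem tp_emb [IsLocalRing R] (hj : Function.Injective j)
    (hact : ∀ g v, j (Φ (ρ g) v) = g • j v) (hspan : Algebra.adjoin R (Set.range ρ) = ⊤)
    (hp : p.Prime) (hp2 : p ≠ 2) (hpL : ¬ p ∣ L) (k : ℕ) (hV : ∀ v, p ^ k • j v = 0)
    (Tp : V →ₗ[R] V) (hTp : ∀ v, j (Tp v) = heckeOperatorBar L ⟨p, hp⟩ (j v))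
    {A : ValuationSubring Qbar} (hA : A.LiesOverPrime p) {s : GQ} (hs : A.IsFrobeniusAt s p)
    {x ψ : GQ → R} (HO : OrdOp ρ (A.decompositionSubgroup ℚ) (A.inertiaSubgroupIn ℚ) x ψ)
    {δ : GQ} (hδ : δ ∈ A.inertiaSubgroupIn ℚ) (hδ1 : IsUnit ((ρ δ).det - 1))
    {ψ' : R} (hψ : ψ s * ψ' = 1) (v : V) : Tp v = (ψ s + p * ψ') • v := by
  refine tp_abs_ordOp Φ ρ hspan HO ?_ hδ hδ1 hs.mem_decompositionSubgroup p Tp (fun g x => hj ?_)
    (tp_es_emb Φ ρ j hj hact hp hp2 hpL k hV Tp hTp hA hs) hψ v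
  · rintro _ ⟨τ, -, rfl⟩
    exact τ.2
  · rw [hTp, hact, hact, hTp]
    exact (GAL.galHecke L ⟨p, hp⟩ g (j x)).symm

end Emb

/-! ### the joint (RHO) -/

section Conc

variable {L p m : ℕ} [NeZero L] [NeZero m] {X : AddSubgroup (JZero L)} {rE : GQ →* M₂ (ZMod m)}
  {R : Type} [CommRing R] [Algebra (ZMod m) R] [Module R ↥X] {πE : R →ₐ[ZMod m] ZMod m}
  {ρ : GQ →* M₂ R} {Φ : M₂ R →ₐ[R] Module.End R ↥X}

set_option maxHeartbeats 2000000 in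
/-- the restriction of `T_p` to `X` is `R`-linear. -/
theorem exists_tpX (H : Rho.IsRhoK L m X rE πE ρ Φ) (hp : p.Prime)
    (hXT : ∀ x ∈ X, heckeOperatorBar L ⟨p, hp⟩ x ∈ X) :
    ∃ Tp : ↥X →ₗ[R] ↥X, ∀ v, X.subtype (Tp v) = heckeOperatorBar L ⟨p, hp⟩ (X.subtype v) := by
  obtain ⟨w, hw⟩ : ∃ w : ↥X →+ ↥X,
      ∀ v, X.subtype (w v) = heckeOperatorBar L ⟨p, hp⟩ (X.subtype v) :=
    ⟨((heckeOperatorBar L ⟨p, hp⟩).toAddMonoidHom.comp X.subtype).codRestrict X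
      (fun x => hXT x.1 x.2), fun _ => rfl⟩
  have hinj : Function.Injective X.subtype := Subtype.val_injective
  have hact : ∀ g v, X.subtype (Φ (ρ g) v) = g • X.subtype v := H.act
  have halg : ∀ (c : ZMod m) (x : ↥X), X.subtype (algebraMap (ZMod m) R c • x) =
      c.val • X.subtype x := H.alg
  have hlin := map_smul_of_tr (k := ZMod m) Φ ρ H.tr (fun g => ⟨_, H.det g⟩) w
    (fun c x => hinj (by rw [hw, halg, halg, hw, map_nsmul]))
    (fun g x => hinj (by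
      rw [hw, hact, hact, hw]
      exact (GAL.galHecke L ⟨p, hp⟩ g (X.subtype x)).symm))
  exact ⟨{ toFun := w, map_add' := w.map_add, map_smul' := hlin }, hw⟩

/-- **[TP-RHO]**, `U`-form, for the joint (RHO). -/
theorem tp_rhoK_U (H : Rho.IsRhoK L m X rE πE ρ Φ) (hspan : Algebra.adjoin R (Set.range ρ) = ⊤)
    (hp : p.Prime) (hp2 : p ≠ 2) (hpL : ¬ p ∣ L)
    {k : ℕ} (hm : m = p ^ k) (hXm : ∀ x ∈ X, m • x = 0)
    (hXT : ∀ x ∈ X, heckeOperatorBar L ⟨p, hp⟩ x ∈ X)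
    {A : ValuationSubring Qbar} (hA : A.LiesOverPrime p) {s : GQ} (hs : A.IsFrobeniusAt s p)
    (U : M₂ R) (hUI : ∀ τ ∈ A.inertiaSubgroupIn ℚ, U * (ρ τ - 1) = 0) (ψ ψ' : R)
    (hψ : ψ * ψ' = 1) (hUs : U * ρ s = ψ • U) {i i' : Fin 2} (hu : IsUnit (U i i')) (v : ↥X) :
    heckeOperatorBar L ⟨p, hp⟩ (v : JZero L) = (((ψ + p * ψ') • v : ↥X) : JZero L) := by
  obtain ⟨Tp, hTp⟩ := exists_tpX H hp hXT
  have h1 := tp_emb_U Φ ρ X.subtype Subtype.val_injective H.act hspan hp hp2 hpL k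
    (fun v => hm ▸ hXm v.1 v.2) Tp hTp hA hs U hUI ψ ψ' hψ hUs hu v
  rw [← h1]
  exact (hTp v).symm

/-- **[TP-RHO]** for the joint (RHO) : `T_p = ψ(s) + p ψ(s)⁻¹` on `X`. -/
theorem tp_rhoK [IsLocalRing R] (H : Rho.IsRhoK L m X rE πE ρ Φ)
    (hspan : Algebra.adjoin R (Set.range ρ) = ⊤)
    (hp : p.Prime) (hp2 : p ≠ 2) (hpL : ¬ p ∣ L)
    {k : ℕ} (hm : m = p ^ k) (hXm : ∀ x ∈ X, m • x = 0)
    (hXT : ∀ x ∈ X, heckeOperatorBar L ⟨p, hp⟩ x ∈ X)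
    {A : ValuationSubring Qbar} (hA : A.LiesOverPrime p) {s : GQ} (hs : A.IsFrobeniusAt s p)
    {x ψ : GQ → R} (HO : OrdOp ρ (A.decompositionSubgroup ℚ) (A.inertiaSubgroupIn ℚ) x ψ)
    {δ : GQ} (hδ : δ ∈ A.inertiaSubgroupIn ℚ) (hδ1 : IsUnit ((ρ δ).det - 1))
    {ψ' : R} (hψ : ψ s * ψ' = 1) (v : ↥X) :
    heckeOperatorBar L ⟨p, hp⟩ (v : JZero L) = (((ψ s + p * ψ') • v : ↥X) : JZero L) := by
  obtain ⟨Tp, hTp⟩ := exists_tpX H hp hXT
  have h1 := tp_emb Φ ρ X.subtype Subtype.val_injective H.act hspan hp hp2 hpL k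
    (fun v => hm ▸ hXm v.1 v.2) Tp hTp hA hs HO hδ hδ1 hψ v
  rw [← h1]
  exact (hTp v).symm

/-- **[TP-RHO]**, packaged : `ρ` ordinary at `p` (in the sense of `GaloisRepAdic.IsOrdinaryAt`), `det = χ`. -/
theorem tp_rhoK_ord [IsLocalRing R] (H : Rho.IsRhoK L m X rE πE ρ Φ) {T : Finset ℕ} {a : ℕ → ℤ}
    (E : Rho.EK m T a rE) (hp : p.Prime) (hp2 : p ≠ 2) (hpL : ¬ p ∣ L)
    {k : ℕ} (hm : m = p ^ k) (hXm : ∀ x ∈ X, m • x = 0)
    (hXT : ∀ x ∈ X, heckeOperatorBar L ⟨p, hp⟩ x ∈ X) (hc : MatCont R ρ)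
    (hdet : (ofMat ρ hc).DetIsCyclotomic p) (hord : (ofMat ρ hc).IsOrdinaryAt p)
    {A : ValuationSubring Qbar} (hA : A.LiesOverPrime p) {s : GQ} (hs : A.IsFrobeniusAt s p) :
    ∃ x ψ : GQ → R, OrdOp ρ (A.decompositionSubgroup ℚ) (A.inertiaSubgroupIn ℚ) x ψ ∧
      ∃ ψ' : R, ψ s * ψ' = 1 ∧ ∀ v : ↥X,
        heckeOperatorBar L ⟨p, hp⟩ (v : JZero L) = (((ψ s + p * ψ') • v : ↥X) : JZero L) := by
  obtain ⟨x, ψ, HO⟩ := exists_ordOp ρ hc hord hA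
  obtain ⟨δ, hδ, hδ1⟩ := S33.exists_inertia_det_ne_one (ofMat ρ hc) hp hp2 hdet A hA
  have hδ2 : IsUnit ((ρ δ).det - 1) := by
    rw [← AtP.det_ofMat ρ hc δ]
    exact S33.isUnit_det_sub_one hδ1
  obtain ⟨ψ', hψ⟩ := (HO.isUnit hs.mem_decompositionSubgroup).exists_right_inv
  exact ⟨x, ψ, HO, ψ', hψ, tp_rhoK H (adjoin_range_rhoK E H) hp hp2 hpL hm hXm hXT hA hs HO hδ hδ2 hψ⟩

end Conc

end Fermat.Agent.ML.TP
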