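import Fermat.Agent.ML.AtP.StepP.MidCore
import Fermat.Agent.ML.AtP.StepP.OfMid
import Fermat.Agent.ML.Lift.Inst.GenFrame
import Fermat.Agent.ML.Hard.Poly

/-!
# ML / AtP / TP / MidFin : the contract `Hard.MidFStmt` at `q = p`, and `StepPStmt`

`midF_p` = `StepP.MidCore.mid_core_p` (the frame-free middle block at `p`) + `StepGen.Frame.*` + `StepP.cpP'` (the element `c_p`, (EMB));
`stepPStmt69 : StepPStmt` := `StepP.stepP_of_midF`.
-/

set_option autoImplicit false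
set_option linter.unusedSectionVars false
set_option linter.unusedVariables false

noncomputable section

open AlgebraicCurve ModularCurve MvPolynomial

namespace Fermat.Agent.ML.TP.MidFin

open Fermat.Agent.RIB Fermat.Agent.RIB.Rho Fermat.Agent.GAL Fermat.Agent.ML.ESide Fermat.Agent.S56
  Fermat.Agent.S56.Flat Fermat.Agent.ML.TWFree Fermat.Agent.ML.Lift Fermat.Agent.ML.Hard
  Fermat.Agent.ML.StepP ExtCitation Fermat.Agent.ML.At2

local notation "Qbar" => AlgebraicClosure ℚ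
local notation "GQ" => (AlgebraicClosure ℚ ≃ₐ[ℚ] AlgebraicClosure ℚ)
local notation "M₂" => Matrix (Fin 2) (Fin 2)

variable {W : WeierstrassCurve ℤ} {p : ℕ} [Fact p.Prime] {T : Finset ℕ}
  {b : Module.Basis (Fin 2) (ZMod p) (TorsW W p)} {L₀ : ℕ} [NeZero L₀] {eps : ℕ → ℤ} {eP : GQ → ℤ}

set_option maxHeartbeats 2000000 in
/-- **the middle block of the step at `p`**, in the shape of `Hard.MidFStmt`. -/
theorem midF_p (X : LCtx W p T b L₀ eps eP) (hpP : p ∈ Pfin W (rbarB b) L₀) (t : ℕ) :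
    Hard.MidFStmt X t ((Pfin W (rbarB b) L₀).erase p) p := by
  classical
  have hp : p.Prime := Fact.out
  have hq2 : p ≠ 2 := X.C.hp2
  have hpΔ : (p : ℤ) ∣ W.Δ := X.dvd_of_mem_Pfin hpP
  obtain ⟨s₁, δ, hs₁, -, hεε, hdisc, -⟩ := (X.sgnP hpΔ).exists_s1_delta X.C.hp2 b X.C.det
  have hA2 := liesOverPrime_primeLocalPlace twoP
  obtain ⟨φ2, hφ2⟩ := S56.exists_isFrobeniusAt Nat.prime_two hA2
  obtain ⟨f2, hf2⟩ := exists_not_dvd p hp
    (N2val (rbarB b) ((Pfin W (rbarB b) L₀).erase p) φ2) (N2val_ne_zero _ φ2)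
  have hP : (Pfin W (rbarB b) L₀).erase p ⊆ Pfin W (rbarB b) L₀ := Finset.erase_subset _ _
  have hqP : p ∉ (Pfin W (rbarB b) L₀).erase p := Finset.notMem_erase _ _
  have hins : insert p ((Pfin W (rbarB b) L₀).erase p) = Pfin W (rbarB b) L₀ :=
    Finset.insert_erase hpP
  have hsub : insert p ((Pfin W (rbarB b) L₀).erase p) ⊆ Pfin W (rbarB b) L₀ := by rw [hins]
  refine ⟨f2 + ((Pfin W (rbarB b) L₀).erase p).card,
    fun a m n K qv hF ha Lc Lc' _ _ _ hLc hL G hG hG0 B hTop E R _ _ _ _ iM πE ρ Φ H Gt hGt => ?_⟩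
  letI iM' : Module R ↥(tV p (↑(cutS T qv) : Set ℕ) W.apOfModel (lvl Lc' (extP qv) t) (K + 1)) := iM
  have hLc' : Lc' = cellLevel L₀ (insert p ((Pfin W (rbarB b) L₀).erase p)) := by
    rw [cellLevel_insert L₀ X.C.hp2 (Finset.notMem_erase _ _), hL, hLc]
  have hnotT : ∀ i, ((qv i : Nat.Primes) : ℕ) ∉ T := (X.mtw_cell_frm hF hsub hLc').notT
  have hpN : ¬ p ∣ lvl Lc (extP qv) t :=
    X.not_dvd_lvl_cell hF (Finset.erase_subset _ _) hpP X.C.hp2 (Finset.notMem_erase _ _) hLc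
  have hS : ∀ r : ℕ, r.Prime → r ∣ lvl Lc' (extP qv) t * p → r ∈ cutS T qv := fun r hr hd =>
    Fermat.Agent.ML.Rho.mem_cutS_of_dvd_lvl
      (fun r' hr' hd' => (X.cellLevel_spec hsub).1 r' hr' (hLc' ▸ hd')) t hr hd
  obtain ⟨c, hc0, hcJ, hemb⟩ := cpP' (a := a) X hpΔ hF.hK hnotT (lvl_mul_q hL qv) hpN hS hTop E H hs₁
  -- the frame
  have hYG := StepGen.Frame.hYG hL hG Gt hGt
  have hGV := StepGen.Frame.hGV X hP hpP hqP hq2 hF hLc hL hG
    (V := cellV p (↑(cutS T qv) : Set ℕ) W.apOfModel (lvl Lc' (extP qv) t) (K + 1))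
    (fun _ => Iff.rfl)
  have hY0 := StepGen.Frame.ne_bot X hP hpP hqP hq2 hF hLc hL hG Gt hGt hG0 hGV
  have hYS : ∀ y ∈ Gt, ∃ v ∈ G, upE (lvl_mul_q hL qv) 0 v = (y : JZero (lvl Lc' (extP qv) t)) :=
    fun y hy => (hGt y).1 hy
  have hu : ∀ (g : GQ) v, upE (lvl_mul_q hL qv) 0 (g • v) = g • upE (lvl_mul_q hL qv) 0 v :=
    fun g v => upE_smul _ 0 g v
  obtain ⟨β', Hr, σ, iH, iσ, D, val, pt, Pc, Pβ, h1, h2, h3, h4, h5, h6, h7, h8, h9, hout⟩ :=
    MidCore.mid_core_p X hTop H hG _ hu hF.gen hpΔ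
      (StepGen.Frame.hlev X hP hpP hqP hq2 hF hLc hL)
      (fun v hv h0 => StepGen.Frame.hinj X hP hpP hqP hq2 hF hLc hL v (hG.le hv) h0) hpN
      Gt hYG hY0 hYS hP hqP
      (fun v hv hv2 => old_level X hsub hnotT (Finset.mem_insert_of_mem hv) hv2 hLc')
      hs₁ hdisc c (by rw [pi0_apply, hc0, map_zero]) hcJ hφ2 hf2
  refine ⟨eP s₁, Hr, σ, iH, iσ, D, val, pt, c, β', Pc, Pβ, ⟨h1, h2, h3, h4, h5, h6, h7, h8, h9,
    fun v hv hv' hcv k => ?_, fun G' hgal hle hx => ?_⟩⟩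
  · exact (hemb v hv ⟨_, hv'⟩ rfl hcv).2 k
  · obtain ⟨o1, o2, o3⟩ := hout (G' : Set (JZero (lvl Lc' (extP qv) t))) (fun y hy => by
      obtain ⟨x₁, -, e⟩ := hx y hy
      exact ⟨x₁, e⟩)
    refine ⟨fun q' hq' hq'p => ?_, fun h2 hram => o2 hram fun h => h2 (Finset.mem_insert_of_mem h),
      fun hram => o3 (Or.inl hram)⟩
    rcases Finset.mem_insert.1 hq' with rfl | hq'
    · exact absurd rfl hq'p
    · exact o1 q' hq'

end Fermat.Agent.ML.TP.MidFin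

namespace Fermat.Agent.ML.TP.MidFin

/-- **(C-STEP-P).** -/
theorem stepPStmt69 : StepPStmt :=
  StepP.stepP_of_midF fun _ _ _ _ _ _ _ _ _ X t hpP => midF_p X hpP t

end Fermat.Agent.ML.TP.MidFin
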