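import Fermat.Agent.ML.AtP.TP.Up
import Fermat.Agent.ML.AtP.Cell
import Fermat.Agent.ML.AtP.StepP.Emb

/-!
# ML / AtP / TP / Rel : **[P1]** `tp_of_rel`   (the hypothesis `htp` of `dnE_embE_p`)

`p ∤ N`, `W` multiplicative at `p`, `s₁` a Frobenius lift at `p` with `s₁ = (·)^a₁` on `μ_(p^(a+1))`, `a₁ ≢ 1 mod p`, `ε := eP s₁`.
If `v` in the `θ`-part of `J₀(N)[p^a]` satisfies `s₁ g v + a₁ s₁⁻¹ g v = ε (1 + a₁) g v` for all `g`, then `T_p v = ε (p + 1) v`.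

PROOF.  `G` := the subgroup of all such `v` (Galois and `T_p`-stable);  joint (RHO) on `G`: `ρ` is ordinary at `p`
(`isOrdinaryAt_of_isRhoK`), `ψ² - tr ρ(s₁) ψ + det ρ(s₁) = 0` for `ψ := ψ(s₁)`, so `(ψ - ε)(ψ - ε a₁) G = 0`;  `πE ψ = ε`, so
`ψ - ε a₁` is a unit;  `T_p = ψ + p ψ⁻¹` (`tp_rhoK`).
-/

set_option autoImplicit false
set_option linter.unusedSectionVars false
set_option linter.style.haveILetI false

noncomputable section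

namespace Fermat.Agent.ML.TP

open ModularCurve AlgebraicCurve Matrix IsLocalRing
open Fermat.Agent.S33 Fermat.Agent.S53 Fermat.Agent.RIB Fermat.Agent.ML.AtP

local notation "Qbar" => AlgebraicClosure ℚ
local notation "M₂" => Matrix (Fin 2) (Fin 2)

section Abs

/-- the algebra of the proof. -/
theorem smul_eq_of_quad {R V : Type*} [CommRing R] [AddCommGroup V] [Module R V] {ψ ψ' x t d ε a : R}
    (hψ : ψ * ψ' = 1) (ht : t = x + ψ) (hd : d = x * ψ) (hε : ε * ε = 1) (hu : IsUnit (ψ - ε * a))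
    {v : V} (h1 : (t - ε * (1 + a)) • v = 0) (h2 : (d - a) • v = 0) (p : R) :
    (ψ + p * ψ') • v = (ε * (p + 1)) • v := by
  have h3 : ((ψ - ε * a) * (ψ - ε)) • v = 0 := by
    have e : (ψ - ε * a) * (ψ - ε) = ψ * (t - ε * (1 + a)) - (d - a) + (ε * ε - 1) * a := by
      rw [ht, hd]; ring
    rw [e, hε, sub_self, zero_mul, add_zero, sub_smul, mul_smul, h1, h2, smul_zero, sub_zero]
  have h4 : (ψ - ε) • v = 0 := by
    obtain ⟨u, hu⟩ := hu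
    rw [← hu, mul_smul] at h3
    have := congrArg (fun z => (↑u⁻¹ : R) • z) h3
    simpa [smul_smul] using this
  have h5 : ψ • v = ε • v := by rwa [sub_smul, sub_eq_zero] at h4
  have h6 : ψ' • v = ε • v := by
    calc ψ' • v = (ψ' * (ε * ε)) • v := by rw [hε, mul_one]
      _ = (ψ' * ε) • (ε • v) := by rw [smul_smul]; ring_nf
      _ = (ψ' * ε) • (ψ • v) := by rw [h5]
      _ = ((ψ * ψ') * ε) • v := by rw [smul_smul]; ring_nf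
      _ = ε • v := by rw [hψ, one_mul]
  rw [add_smul, mul_smul, h5, h6, ← mul_smul, ← add_smul]
  congr 1
  ring

end Abs

section RhoK

variable {N p m : ℕ} [NeZero N] [NeZero m] {X : AddSubgroup (JZero N)} {rE : GQ →* M₂ (ZMod m)}
  {R : Type} [CommRing R] [Algebra (ZMod m) R] [Module R ↥X] {πE : R →ₐ[ZMod m] ZMod m}
  {ρ : GQ →* M₂ R} {Φ : M₂ R →ₐ[R] Module.End R ↥X}

/-- **[P1]**, ring form. -/
theorem tp_of_rel_rhoK [IsLocalRing R] [Finite R] (H : Rho.IsRhoK N m X rE πE ρ Φ) {T : Finset ℕ}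
    {a : ℕ → ℤ} (E : Rho.EK m T a rE) (hp : p.Prime) (hp2 : p ≠ 2) (hpN : ¬ p ∣ N) {k : ℕ}
    (hm : m = p ^ (k + 1)) (hX : ∀ x ∈ X, m • x = 0)
    (hXT : ∀ x ∈ X, heckeOperatorBar N ⟨p, hp⟩ x ∈ X)
    (hcont : GaloisFactorsThroughFiniteLevel ρ)
    {YE : Type*} [AddCommGroup YE] [Finite YE] [DistribMulAction GQ YE] (hAnnE : Ann YE rE)
    (hmE : ∀ y : YE, m • y = 0)
    (hE : ∀ P : ValuationSubring Qbar, P.LiesOverPrime p →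
      StrictMod (P.decompositionSubgroup ℚ) (P.inertiaSubgroupIn ℚ) m YE)
    {A : ValuationSubring Qbar} (hA : A.LiesOverPrime p) {s : GQ} (hs : A.IsFrobeniusAt s p)
    {ε : ℤ} (hε : ε * ε = 1)
    (hEs : ∀ δ ∈ A.inertiaSubgroupIn ℚ, ∀ (y : YE) (b : ℕ), (∀ μ : Qbar, μ ^ m = 1 → δ μ = μ ^ b) →
      δ • (s • y - ε • y) = (b : ℤ) • (s • y - ε • y))
    {a₁ : ℕ} (ha₁ : ∀ μ : Qbar, μ ^ m = 1 → s μ = μ ^ a₁) (hne : ¬ a₁ ≡ 1 [MOD p])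
    (hrel : ∀ v ∈ X, s • v + a₁ • s⁻¹ • v = (ε * (1 + (a₁ : ℤ))) • v) {v : JZero N} (hv : v ∈ X) :
    heckeOperatorBar N ⟨p, hp⟩ v = (ε * ((p : ℤ) + 1)) • v := by
  have hN2 : ¬ p ^ 2 ∣ N := fun h => hpN (dvd_trans (dvd_pow_self p two_ne_zero) h)
  have hpm : p ∣ m := hm ▸ dvd_pow_self p (Nat.succ_ne_zero k)
  haveI : IsLocalRing (ZMod m) := Rho.isLocalRing_zmod hp hm hpm
  obtain ⟨hdet, hord⟩ := isOrdinaryAt_of_isRhoK hp hp2 hN2 hm H hX hcont hAnnE hmE hE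
  obtain ⟨x, ψ, HO⟩ := exists_ordOp ρ _ hord hA
  obtain ⟨δ, hδ, hδ1⟩ := S33.exists_inertia_det_ne_one _ hp hp2 hdet A hA
  have hδ2 : IsUnit ((ρ δ).det - 1) := by
    rw [← AtP.det_ofMat ρ (matCont_of_cont hcont) δ]
    exact S33.isUnit_det_sub_one hδ1
  have hsD := hs.mem_decompositionSubgroup
  have hID := inertia_le_decomposition A
  obtain ⟨ψ', hψ⟩ := (HO.isUnit hsD).exists_right_inv
  have hεR : (ε : R) * (ε : R) = 1 := by exact_mod_cast congrArg (Int.cast : ℤ → R) hε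
  -- the `E`-side
  have hψE : πE (ψ s) = ((ε : ℤ) : ZMod m) := by
    refine piE_psi H hp hm HO hID hδ hδ2 hsD ?_
    have h1 := ann_mul_eq_zero hAnnE (δ := δ) (τ := s)
      (a := (((Rho.chiM m δ).val : ℕ) : ℤ)) (b := ε)
      (fun y => hEs δ hδ y _ fun μ hμ => GAL.cycloChar_spec m δ hμ)
    have e : (rE δ).det = ((((Rho.chiM m δ).val : ℕ) : ℤ) : ZMod m) := by
      rw [E.det, Int.cast_natCast, ZMod.natCast_zmod_val]
    rw [e]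
    exact h1
  -- `ψ - ε a₁` is a unit
  have hu : IsUnit (ψ s - (ε : R) * (a₁ : R)) := by
    have hsurj : Function.Surjective (πE : R →+* ZMod m) := fun c =>
      ⟨algebraMap (ZMod m) R c, πE.commutes c⟩
    haveI := IsLocalHom.of_surjective (πE : R →+* ZMod m) hsurj
    refine (isUnit_map_iff (πE : R →+* ZMod m) _).1 ?_
    have e : (πE : R →+* ZMod m) (ψ s - (ε : R) * (a₁ : R)) =
        ((ε : ℤ) : ZMod m) * (((1 - (a₁ : ℤ) : ℤ)) : ZMod m) := by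
      rw [map_sub, map_mul, map_intCast, map_natCast]
      show πE (ψ s) - _ = _
      rw [hψE]
      push_cast
      ring
    rw [e]
    have hεm : ((ε : ℤ) : ZMod m) * ((ε : ℤ) : ZMod m) = 1 := by
      exact_mod_cast congrArg (Int.cast : ℤ → ZMod m) hε
    refine IsUnit.mul (IsUnit.of_mul_eq_one _ hεm) ?_
    rw [ZMod.coe_int_isUnit_iff_isCoprime, hm, Nat.cast_pow]
    refine IsCoprime.pow_left ?_
    rw [Prime.coprime_iff_not_dvd (Nat.prime_iff_prime_int.1 hp)]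
    intro hdvd
    exact hne ((Nat.modEq_iff_dvd.2 (by exact_mod_cast hdvd)))
  set v' : ↥X := ⟨v, hv⟩ with hv'
  have hχ := H.chi_smul_of_pow ha₁
  have h1 : ((ρ s).trace - (ε : R) * (1 + (a₁ : R))) • v' = 0 := by
    have e := H.isTraceRing.tr_sub_smul s (ε * (1 + (a₁ : ℤ))) v'
    rw [hχ _ (H.smul_mem s⁻¹ _ hv), hrel v hv, sub_self] at e
    have e2 : (((ε * (1 + (a₁ : ℤ)) : ℤ)) : R) = (ε : R) * (1 + (a₁ : R)) := by push_cast; ring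
    rw [← e2]
    exact Subtype.ext e
  have h2 : ((ρ s).det - (a₁ : R)) • v' = 0 := by
    refine Subtype.ext ?_
    rw [sub_smul, AddSubgroup.coe_sub, H.det, H.alg, Nat.cast_smul_eq_nsmul, AddSubgroup.coe_nsmul,
      ← hχ v hv, natCast_zsmul, sub_self]
    rfl
  have h3 := smul_eq_of_quad hψ (HO.trace hsD) (HO.det s hsD) hεR hu h1 h2 (p : R)
  have h4 := tp_rhoK H (adjoin_range_rhoK E H) hp hp2 hpN hm hX hXT hA hs HO hδ hδ2 hψ v'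
  rw [h3] at h4
  rw [h4]
  have e2 : (ε : R) * ((p : R) + 1) = (((ε * ((p : ℤ) + 1) : ℤ)) : R) := by push_cast; ring
  rw [e2, Int.cast_smul_eq_zsmul, AddSubgroup.coe_zsmul]

end RhoK

section Sub

variable (N p : ℕ) [NeZero N] (S : Set ℕ) (θ : ℕ → ℤ)

/-- the solutions of the relation `s₁ + a₁ s₁⁻¹ = n` (on the whole Galois orbit) in the `θ`-part of `J₀(N)[M]`. -/
def relSub (M : ℕ) (s₁ : GQ) (a₁ : ℕ) (n : ℤ) : AddSubgroup (JZero N) where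
  carrier := {v | v ∈ thetaPart N p S θ ∧ M • v = 0 ∧
    ∀ g : GQ, s₁ • g • v + a₁ • s₁⁻¹ • g • v = n • g • v}
  zero_mem' := ⟨(thetaPart N p S θ).zero_mem, smul_zero _, fun g => by simp⟩
  add_mem' := by
    rintro x y ⟨hx1, hx2, hx3⟩ ⟨hy1, hy2, hy3⟩
    refine ⟨(thetaPart N p S θ).add_mem hx1 hy1, by rw [nsmul_add, hx2, hy2, add_zero], fun g => ?_⟩
    rw [smul_add, smul_add, smul_add, nsmul_add, zsmul_add, ← hx3 g, ← hy3 g]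
    abel
  neg_mem' := by
    rintro x ⟨hx1, hx2, hx3⟩
    refine ⟨(thetaPart N p S θ).neg_mem hx1, by rw [neg_nsmul, hx2, neg_zero], fun g => ?_⟩
    rw [smul_neg, smul_neg, smul_neg, neg_nsmul, zsmul_neg, ← hx3 g]
    abel

variable {N p S θ}

theorem mem_relSub {M : ℕ} {s₁ : GQ} {a₁ : ℕ} {n : ℤ} {v : JZero N} :
    v ∈ relSub N p S θ M s₁ a₁ n ↔ v ∈ thetaPart N p S θ ∧ M • v = 0 ∧
      ∀ g : GQ, s₁ • g • v + a₁ • s₁⁻¹ • g • v = n • g • v := Iff.rfl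

theorem smul_mem_relSub {M : ℕ} {s₁ : GQ} {a₁ : ℕ} {n : ℤ} (g : GQ) {v : JZero N}
    (hv : v ∈ relSub N p S θ M s₁ a₁ n) : g • v ∈ relSub N p S θ M s₁ a₁ n := by
  obtain ⟨h1, h2, h3⟩ := hv
  refine ⟨smul_mem_thetaPart g h1, ?_, fun g' => ?_⟩
  · have := map_nsmul (DistribSMul.toAddMonoidHom (JZero N) g) M v
    rw [h2, map_zero] at this
    exact this.symm
  rw [← mul_smul g' g]
  exact h3 _

theorem hecke_mem_relSub {M : ℕ} {s₁ : GQ} {a₁ : ℕ} {n : ℤ} (r : Nat.Primes) {v : JZero N}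
    (hv : v ∈ relSub N p S θ M s₁ a₁ n) : heckeOperatorBar N r v ∈ relSub N p S θ M s₁ a₁ n := by
  obtain ⟨h1, h2, h3⟩ := hv
  refine ⟨hecke_mem_thetaPart r h1, by rw [← map_nsmul, h2, map_zero], fun g => ?_⟩
  have e : ∀ (σ : GQ) y, σ • heckeOperatorBar N r y = heckeOperatorBar N r (σ • y) := fun σ y =>
    GAL.galHecke N r σ y
  rw [e, e, e, ← map_nsmul, ← map_add, h3 g, map_zsmul]

end Sub

section Inst

open Fermat.Agent.ML.ESide Fermat.Agent.S56.Flat ExtCitation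

variable {W : WeierstrassCurve ℤ} {N p : ℕ} [NeZero N] [hp : Fact p.Prime]

/-- **[P1]** for `W` multiplicative at `p`. -/
theorem tp_of_rel_W {K : ℕ} [NeZero (p ^ (K + 1))] (hΔ : W.Δ ≠ 0) (hp2 : p ≠ 2)
    (hirr : W.ModRepIsIrreducible p) (hpΔ : (p : ℤ) ∣ W.Δ) (hc₄ : ¬ (p : ℤ) ∣ W.c₄) (hpN : ¬ p ∣ N)
    (B : Module.Basis (Fin 2) (ZMod (p ^ (K + 1))) (TorsW W (p ^ (K + 1)))) (S : Finset ℕ)
    (hS : ∀ r : ℕ, r.Prime → r ∣ N * p → r ∈ S)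
    (E : Rho.EK (p ^ (K + 1)) S W.apOfModel (rEB B)) {eP : GQ → ℤ} (hP : SignP W p eP)
    {s₁ : GQ} (hs₁ : (Ap p).IsFrobeniusAt s₁ p) {a₁ : ℕ}
    (ha₁ : ∀ μ : Qbar, μ ^ (p ^ (K + 1)) = 1 → s₁ μ = μ ^ a₁) (hne : ¬ a₁ ≡ 1 [MOD p])
    {v : JZero N} (hv : v ∈ thetaPart N p (↑S : Set ℕ) W.apOfModel) (hvK : p ^ (K + 1) • v = 0)
    (hrel : ∀ g : GQ, s₁ • g • v + a₁ • s₁⁻¹ • g • v = (eP s₁ * (1 + (a₁ : ℤ))) • g • v) :
    heckeOperatorBar N ⟨p, hp.out⟩ v = (eP s₁ * ((p : ℤ) + 1)) • v := by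
  set G : AddSubgroup (JZero N) :=
    relSub N p (↑S : Set ℕ) W.apOfModel (p ^ (K + 1)) s₁ a₁ (eP s₁ * (1 + (a₁ : ℤ))) with hG
  have hvG : v ∈ G := ⟨hv, hvK, hrel⟩
  have hpm : p ∣ p ^ (K + 1) := dvd_pow_self p (Nat.succ_ne_zero K)
  have hXm : ∀ x ∈ G, p ^ (K + 1) • x = 0 := fun x hx => hx.2.1
  obtain ⟨R, _, _, _, _, _, πE, ρ, Φ, H⟩ :=
    Rho.exists_rhoK hp.out (k := K + 1) rfl hpm S hS W.apOfModel E G
      (fun g x hx => smul_mem_relSub g hx) hXm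
      (fun r hr x hx => hx.1.2 r fun h => hr (Finset.mem_coe.1 h))
  have hAp : (Ap p).LiesOverPrime p := S56.liesOverPrime_primeLocalPlace (pPrime p)
  obtain ⟨hP1, hP2, -, hP4⟩ := hP
  haveI : Finite (TorsW W (p ^ (K + 1))) := finite_torsW W (hp.out.odd_of_ne_two hp2).pow
  have hε : eP s₁ * eP s₁ = 1 := by rcases hP1 s₁ with h | h <;> rw [h] <;> norm_num
  refine tp_of_rel_rhoK H E hp.out hp2 hpN rfl hXm (fun x hx => hecke_mem_relSub _ hx)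
    (H.rhoAct.cont (H.level hXm E.cont)) (ann_torsW B)
    (fun y => Subtype.ext (nsmul_coe_torsW W y))
    (fun A hA => strictMod_torsW W hΔ hp.out hp2 hirr hpΔ hc₄ (K + 1) A hA) hAp hs₁ hε ?_ ha₁ hne
    (fun x hx => by simpa using hx.2.2 1) hvG
  intro δ hδ y b hb
  have h1 := hP4 (K + 1) δ (inertia_le_decomposition (Ap p) hδ) s₁ hs₁.mem_decompositionSubgroup y.1
    (nsmul_coe_torsW W y) b hb
  rw [hP2 δ hδ, mul_one] at h1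
  exact Subtype.ext h1

/-- **[P1]** `tp_of_rel`, all the data from `LCtx` : the hypothesis `htp` of `dnE_embE_p`, `dnE_embE_p_rhoK`. -/
theorem _root_.Fermat.Agent.ML.LCtx.tp_of_rel {T : Finset ℕ}
    {b : Module.Basis (Fin 2) (ZMod p) (TorsW W p)} {L₀ : ℕ} [NeZero L₀] {eps : ℕ → ℤ}
    {eP : GQ → ℤ} (X : LCtx W p T b L₀ eps eP) (hpΔ : (p : ℤ) ∣ W.Δ) (hpN : ¬ p ∣ N)
    {S : Finset ℕ} (hTS : T ⊆ S) (hS : ∀ r : ℕ, r.Prime → r ∣ N * p → r ∈ S) (K : ℕ)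
    {s₁ : GQ} (hs₁ : (Ap p).IsFrobeniusAt s₁ p) {a₁ : ℕ}
    (ha₁ : ∀ μ : Qbar, μ ^ (p ^ (K + 1)) = 1 → s₁ μ = μ ^ a₁) (hne : ¬ a₁ ≡ 1 [MOD p])
    {v : JZero N} (hv : v ∈ thetaPart N p (↑S : Set ℕ) W.apOfModel) (hvK : p ^ (K + 1) • v = 0)
    (hrel : ∀ g : GQ, s₁ • g • v + a₁ • s₁⁻¹ • g • v = (eP s₁ * (1 + (a₁ : ℤ))) • g • v) :
    heckeOperatorBar N ⟨p, hp.out⟩ v = (eP s₁ * ((p : ℤ) + 1)) • v := by
  obtain ⟨B, -, E, -⟩ := exists_EK X.H.hΔ X.C.hp2 X.H.hirr T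
    (fun r hr hrT => ⟨fun h => hrT (X.hbadT r hr h), fun h => hrT (h ▸ X.C.p_mem)⟩) b X.C.nf K
  exact tp_of_rel_W X.H.hΔ X.C.hp2 X.H.hirr hpΔ (X.H.hss p hp.out hpΔ) hpN B S hS (AtP.ek_mono_sub E hTS)
    (X.sgnP hpΔ) hs₁ ha₁ hne hv hvK hrel

open Fermat.Agent.ML.TWFree in
/-- **(EMB) at `q = p`**, no hypothesis left : `c_p := tr ρ(s₁) - ε (1 + a₁)` (`ρ` at the UPPER level `Nq = N p`), `c_p • α^* v = 0` ⟹
`e_p v = α^* v - ε β^* v ∈ ker Π_p`. -/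
theorem _root_.Fermat.Agent.ML.LCtx.dnE_embE_p {T : Finset ℕ}
    {b : Module.Basis (Fin 2) (ZMod p) (TorsW W p)} {L₀ : ℕ} [NeZero L₀] {eps : ℕ → ℤ}
    {eP : GQ → ℤ} (X : LCtx W p T b L₀ eps eP) (hpΔ : (p : ℤ) ∣ W.Δ) (hpN : ¬ p ∣ N)
    {S : Finset ℕ} (hTS : T ⊆ S) (hS : ∀ r : ℕ, r.Prime → r ∣ N * p → r ∈ S) (K : ℕ)
    [NeZero (p ^ (K + 1))] {Nq : ℕ} [NeZero Nq] (h : Nq = N * p)
    {X' : AddSubgroup (JZero Nq)} {rE : GQ →* M₂ (ZMod (p ^ (K + 1)))}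
    {R : Type} [CommRing R] [Algebra (ZMod (p ^ (K + 1))) R] [Module R ↥X']
    {πE : R →ₐ[ZMod (p ^ (K + 1))] ZMod (p ^ (K + 1))}
    {ρ : GQ →* M₂ R} {Φ : M₂ R →ₐ[R] Module.End R ↥X'}
    (H : Rho.IsRhoK Nq (p ^ (K + 1)) X' rE πE ρ Φ)
    (U : AddSubgroup (JZero N)) (hUθ : U ≤ thetaPart N p (↑S : Set ℕ) W.apOfModel)
    (hUK : ∀ v ∈ U, p ^ (K + 1) • v = 0) (hU : ∀ (g : GQ), ∀ v ∈ U, g • v ∈ U)
    (hAV : ∀ v ∈ U, upE h 0 v ∈ X') (hAi : ∀ v ∈ U, upE h 0 v = 0 → v = 0)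
    {s₁ : GQ} (hs₁ : (Ap p).IsFrobeniusAt s₁ p) {a₁ : ℕ}
    (ha₁ : ∀ μ : Qbar, μ ^ (p ^ (K + 1)) = 1 → s₁ μ = μ ^ a₁) (hne : ¬ a₁ ≡ 1 [MOD p])
    {v : JZero N} (hv : v ∈ U)
    (hc : ((ρ s₁).trace - ((eP s₁ * (1 + (a₁ : ℤ)) : ℤ) : R)) • (⟨upE h 0 v, hAV v hv⟩ : ↥X') = 0)
    (k : Fin 2) : dnE h k (upE h 0 v - eP s₁ • upE h 1 v) = 0 := by
  have hε : eP s₁ * eP s₁ = 1 := by
    rcases (X.sgnP hpΔ).1 s₁ with h | h <;> rw [h] <;> norm_num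
  exact dnE_embE_p_rhoK H hp.out hpN h hε U hU hAV hAi s₁ a₁ ha₁
    (fun w hw hrel => X.tp_of_rel hpΔ hpN hTS hS K hs₁ ha₁ hne (hUθ hw) (hUK w hw) hrel) hv hc k

end Inst

end Fermat.Agent.ML.TP
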