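import Fermat.Agent.S56.Flat.Conn
import Fermat.Agent.S56.Flat.Sub

/-!
# ML / AtP / TP / X0Aug  [P-TP-X0AUG] : the connected part of an equivariant order is the augmentation subgroup.

Abstract half of [P-TP].  Setting of `S56/Flat/Defs`.
* `IsEqOrder.comap_surj` : `HasFlat.of_surjective` with the order made explicit (`H.comap (pb C φ)`).
* `IsEqOrder.map_inj` : `HasFlat.of_injective` with the order made explicit (`H.map (pb C φ)`).
* `X0_le_aug` : `X` killed by `p ^ k`, `p` odd : `X0 v H ≤ aug α`  (with `aug_le_X0` : equality).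
-/

set_option autoImplicit false

namespace Fermat.Agent.ML.TP

open Fermat.Agent.S56.Font Fermat.Agent.S56.Flat Fermat.Agent.S56.Flat.QuotPf

variable {Γ : Type} [Group Γ] {C : Type} [Field C] [MulSemiringAction Γ C]
  {Γ₀ : Type} [LinearOrderedCommGroupWithZero Γ₀] {v : Valuation C Γ₀}

section Quot

variable {X X'' : Type} [AddCommGroup X] [AddCommGroup X'']
  {α : Γ →* AddMonoid.End X} {α'' : Γ →* AddMonoid.End X''} {H : Subring (X → C)}

/-- **[F-QUOT]**, explicit order. -/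
theorem IsEqOrder.comap_surj [CharZero C] [Finite X] (φ : X →+ X'') (hφ : Function.Surjective φ)
    (hα : ∀ g x, φ (α g x) = α'' g (φ x)) (hH : IsEqOrder v α H) :
    IsEqOrder v α'' (H.comap (pb C φ)) := by
  classical
  have : Fintype ↥φ.ker := Fintype.ofFinite _
  obtain ⟨s, hsH, hsgen⟩ := hH.fg
  have hL1 := mem_iff_mem_span hH hsH hsgen
  obtain ⟨t₁, t₂, ht₁, ht₂, hT₂, hK₁, hK₂, hker, hsup⟩ :=
    exists_adapted (Γ := Γ) v (dT C φ) s
  have hex : ∀ j : ↥t₂, ∃ e'' : X'' → C, pb C φ e'' = (j : X → C) :=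
    fun j => exists_pb_eq hφ (hT₂ j j.2)
  choose e'' he'' using hex
  have he''H : ∀ j, e'' j ∈ H.comap (pb C φ) := fun j => by
    rw [Subring.mem_comap, he'']
    exact (hL1 _).2 (ht₂ j j.2)
  have hpbsmul : ∀ (r : C) (a'' : X'' → C), pb C φ (r • a'') = r • pb C φ a'' := fun _ _ => rfl
  have hsmul'' : ∀ r ∈ O0 Γ v, ∀ a'' ∈ H.comap (pb C φ), r • a'' ∈ H.comap (pb C φ) := by
    intro r hr a'' ha''
    exact hH.smul r hr _ ha''
  refine ⟨?_, ?_, ?_, ?_, hsmul'', ?_⟩
  · -- int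
    intro a'' ha'' x''
    obtain ⟨x, rfl⟩ := hφ x''
    exact hH.int _ ha'' x
  · -- span
    rw [eq_top_iff]
    intro f'' _
    have key : ∀ f ∈ Submodule.span C (H : Set (X → C)),
        ∃ g'' ∈ Submodule.span C ((H.comap (pb C φ) : Subring (X'' → C)) : Set (X'' → C)),
          pb C φ g'' = avg C φ f := by
      intro f hf
      induction hf using Submodule.span_induction with
      | mem a ha =>
        obtain ⟨a'', ha''⟩ := exists_pb_eq hφ (dT_avg φ a)
        refine ⟨a'', Submodule.subset_span ?_, ha''⟩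
        change pb C φ a'' ∈ H
        rw [ha'']
        exact avg_mem hH φ hα ha
      | zero => exact ⟨0, Submodule.zero_mem _, by simp⟩
      | add x y _ _ hx hy =>
        obtain ⟨gx, hgx, hx⟩ := hx
        obtain ⟨gy, hgy, hy⟩ := hy
        exact ⟨gx + gy, Submodule.add_mem _ hgx hgy, by rw [map_add, map_add, hx, hy]⟩
      | smul r x _ hx =>
        obtain ⟨gx, hgx, hx⟩ := hx
        exact ⟨r • gx, Submodule.smul_mem _ r hgx, by rw [hpbsmul, map_smul, hx]⟩
    obtain ⟨g'', hg'', hg⟩ := key (pb C φ f'') (by rw [hH.span]; trivial)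
    rw [avg_pb, ← hpbsmul] at hg
    have hg2 := pb_injective hφ hg
    have hN : (Fintype.card ↥φ.ker : C) ≠ 0 := Nat.cast_ne_zero.2 Fintype.card_ne_zero
    have hf : f'' = (Fintype.card ↥φ.ker : C)⁻¹ • g'' := by
      rw [hg2, smul_smul, inv_mul_cancel₀ hN, one_smul]
    rw [hf]
    exact Submodule.smul_mem _ _ hg''
  · -- comul
    intro a'' ha''
    obtain ⟨n, b, c, hb, hc, hbc⟩ := hH.comul _ ha''
    set E : ↥t₂ ⊕ ↥t₁ → X → C :=
      Sum.elim (fun j : ↥t₂ => (j : X → C)) (fun i : ↥t₁ => (i : X → C)) with hEdef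
    have hEH : ∀ μ, E μ ∈ H := by
      rintro (j | i)
      · exact (hL1 _).2 (ht₂ j j.2)
      · exact (hL1 _).2 (ht₁ i i.2)
    have hKE : KInd Γ C E := kind_sum_elim (dT C φ) _ _ (fun j => hT₂ j j.2) hK₁ hK₂
    have hE := eq_zero_of_sum_smul_eq_zero α E (fun μ g x => hH.eqv _ (hEH μ) g x) hKE
    have hexp : ∀ a ∈ H, ∃ c : ↥t₂ ⊕ ↥t₁ → C, (∀ μ, c μ ∈ O0 Γ v) ∧ a = ∑ μ, c μ • E μ :=
      fun a ha => exists_coeff_sup (hsup ((hL1 a).1 ha))
    choose β hβ hbβ using fun k => hexp (b k) (hb k)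
    choose γ hγ hcγ using fun k => hexp (c k) (hc k)
    have hbx : ∀ k x, b k x = ∑ μ, β k μ * E μ x := fun k x => by
      have := congrFun (hbβ k) x
      simpa only [Finset.sum_apply, Pi.smul_apply, smul_eq_mul] using this
    have hcx : ∀ k x, c k x = ∑ μ, γ k μ * E μ x := fun k x => by
      have := congrFun (hcγ k) x
      simpa only [Finset.sum_apply, Pi.smul_apply, smul_eq_mul] using this
    obtain ⟨m, hm⟩ : ∃ m : ↥t₂ ⊕ ↥t₁ → ↥t₂ ⊕ ↥t₁ → C, ∀ μ ν, m μ ν = ∑ k, β k μ * γ k ν :=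
      ⟨_, fun _ _ => rfl⟩
    have hmO : ∀ μ ν, m μ ν ∈ O0 Γ v := fun μ ν => by
      rw [hm]
      exact sum_mem fun k _ => mul_mem (hβ k μ) (hγ k ν)
    have hexpand : ∀ x x', a'' (φ (x + x')) = ∑ μ, ∑ ν, m μ ν * (E μ x * E ν x') := by
      intro x x'
      have h0 := hbc x x'
      rw [pb_apply] at h0
      rw [h0]
      calc ∑ k, b k x * c k x'
          = ∑ k, ∑ μ, ∑ ν, (β k μ * γ k ν) * (E μ x * E ν x') := by
            refine Finset.sum_congr rfl fun k _ => ?_
            rw [hbx, hcx, Finset.sum_mul_sum]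
            exact Finset.sum_congr rfl fun μ _ => Finset.sum_congr rfl fun ν _ => by ring
        _ = ∑ μ, ∑ k, ∑ ν, (β k μ * γ k ν) * (E μ x * E ν x') := Finset.sum_comm
        _ = ∑ μ, ∑ ν, m μ ν * (E μ x * E ν x') := by
            refine Finset.sum_congr rfl fun μ _ => ?_
            rw [Finset.sum_comm]
            refine Finset.sum_congr rfl fun ν _ => ?_
            rw [hm, Finset.sum_mul]
    have hy0 : ∀ y : ↥φ.ker, φ (y : X) = 0 := fun y => y.2
    have hz1 : ∀ i ν, m (Sum.inr i) ν = 0 :=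
      coeff_inr_eq_zero φ E hE (fun j => hT₂ j j.2) hK₁ m (fun μ ν => (hmO μ ν).1) (by
        intro x y x'
        rw [← hexpand, ← hexpand]
        simp only [map_add, hy0, add_zero])
    have hz2 : ∀ i μ, m μ (Sum.inr i) = 0 :=
      coeff_inr_eq_zero φ E hE (fun j => hT₂ j j.2) hK₁ (fun ν μ => m μ ν)
        (fun μ ν => (hmO ν μ).1) (by
        intro x y x'
        have h1 : ∀ z z', ∑ μ, ∑ ν, m ν μ * (E μ z * E ν z') = a'' (φ (z' + z)) := by
          intro z z'
          rw [hexpand, Finset.sum_comm]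
          exact Finset.sum_congr rfl fun μ _ => Finset.sum_congr rfl fun ν _ => by ring
        rw [h1, h1]
        simp only [map_add, hy0, add_zero])
    have hEe : ∀ j x, E (Sum.inl j) x = e'' j (φ x) := fun j x => (congrFun (he'' j) x).symm
    have hfinal : ∀ x x', a'' (φ x + φ x') = ∑ j : ↥t₂, ∑ j' : ↥t₂,
        m (Sum.inl j) (Sum.inl j') * (e'' j (φ x) * e'' j' (φ x')) := by
      intro x x'
      rw [← map_add, hexpand]
      simp only [Fintype.sum_sum_type, hz1, hz2, zero_mul, Finset.sum_const_zero, add_zero, hEe]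
    let eq := Fintype.equivFin (↥t₂ × ↥t₂)
    refine ⟨Fintype.card (↥t₂ × ↥t₂),
      fun i => m (Sum.inl (eq.symm i).1) (Sum.inl (eq.symm i).2) • e'' (eq.symm i).1,
      fun i => e'' (eq.symm i).2, fun i => hsmul'' _ (hmO _ _) _ (he''H _), fun i => he''H _, ?_⟩
    intro x'' y''
    obtain ⟨x, rfl⟩ := hφ x''
    obtain ⟨y, rfl⟩ := hφ y''
    rw [hfinal, Equiv.sum_comp eq.symm (fun p : ↥t₂ × ↥t₂ =>
      (m (Sum.inl p.1) (Sum.inl p.2) • e'' p.1) (φ x) * e'' p.2 (φ y)), Fintype.sum_prod_type]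
    refine Finset.sum_congr rfl fun j _ => Finset.sum_congr rfl fun j' _ => ?_
    simp only [Pi.smul_apply, smul_eq_mul, mul_assoc]
  · -- eqv
    intro a'' ha'' g x''
    obtain ⟨x, rfl⟩ := hφ x''
    rw [← hα]
    exact hH.eqv _ ha'' g x
  · -- fg
    refine ⟨Finset.univ.image e'', ?_, ?_⟩
    · intro b hb
      obtain ⟨j, -, rfl⟩ := Finset.mem_image.1 hb
      exact he''H j
    · intro a'' ha''
      have h1 := hker _ ((hL1 _).1 ha'') (dT_pb φ a'')
      obtain ⟨c, hc, hac⟩ := exists_coeff h1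
      obtain ⟨c', hc', hcc'⟩ := exists_coeff_image (O0 Γ v) e'' c hc
      refine ⟨c', hc', ?_⟩
      rw [← hcc']
      apply pb_injective (C := C) hφ
      rw [hac, map_sum]
      refine Finset.sum_congr rfl fun j _ => ?_
      rw [hpbsmul, he'']

end Quot

section Sub

variable {X X' : Type} [AddCommGroup X] [AddCommGroup X']
  {α : Γ →* AddMonoid.End X} {α' : Γ →* AddMonoid.End X'} {H : Subring (X → C)}

/-- **[F-SUB]**, explicit order. -/
theorem IsEqOrder.map_inj (φ : X' →+ X) (hφ : Function.Injective φ)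
    (hα : ∀ g x, φ (α' g x) = α g (φ x)) (hH : IsEqOrder v α H) :
    IsEqOrder v α' (H.map (pb C φ)) := by
  classical
  set R : (X → C) →+* (X' → C) := pb C φ with hRdef
  have hR : ∀ (a : X → C) (x' : X'), R a x' = a (φ x') := fun _ _ => rfl
  refine
    { int := ?_, span := ?_, comul := ?_, eqv := ?_, smul := ?_, fg := ?_ }
  · rintro _ ⟨a, ha, rfl⟩ x
    exact hH.int a ha _
  · have h1 : ((H.map R : Subring (X' → C)) : Set (X' → C)) =
        (LinearMap.funLeft C C φ) '' (H : Set (X → C)) := rfl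
    rw [h1, ← Submodule.map_span, hH.span, Submodule.map_top, LinearMap.range_eq_top]
    exact LinearMap.funLeft_surjective_of_injective C C φ hφ
  · rintro _ ⟨a, ha, rfl⟩
    obtain ⟨n, b, c, hb, hc, habc⟩ := hH.comul a ha
    refine ⟨n, fun i => R (b i), fun i => R (c i), fun i => ⟨b i, hb i, rfl⟩,
      fun i => ⟨c i, hc i, rfl⟩, fun x y => ?_⟩
    rw [hR, map_add, habc]
    rfl
  · rintro _ ⟨a, ha, rfl⟩ g x
    rw [hR, hR, hα, hH.eqv a ha]
  · rintro r hr _ ⟨a, ha, rfl⟩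
    exact ⟨r • a, hH.smul r hr a ha, rfl⟩
  · obtain ⟨s, hs, hfg⟩ := hH.fg
    refine ⟨s.image R, ?_, ?_⟩
    · intro b' hb'
      obtain ⟨b, hb, rfl⟩ := Finset.mem_image.1 hb'
      exact ⟨b, hs b hb, rfl⟩
    · rintro _ ⟨a, ha, rfl⟩
      obtain ⟨c, hc, hac⟩ := hfg a ha
      refine ⟨fun b' => ∑ b ∈ s with R b = b', c b, fun b' => sum_mem fun b _ => hc b, ?_⟩
      have h2 : R a = ∑ b ∈ s, c b • R b := by
        conv_lhs => rw [hac]
        rw [map_sum]
        rfl
      rw [h2, ← Finset.sum_fiberwise_of_maps_to (t := s.image R) (g := R)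
        (fun b hb => Finset.mem_image_of_mem R hb)]
      refine Finset.sum_congr rfl fun b' _ => ?_
      rw [Finset.sum_smul]
      refine Finset.sum_congr rfl fun b hb => ?_
      rw [(Finset.mem_filter.1 hb).2]

end Sub

section Main

variable {X : Type} [AddCommGroup X] {α : Γ →* AddMonoid.End X} {H : Subring (X → C)}

theorem nsmul_mem_X0 (hH : IsEqOrder v α H) {x : X} (hx : x ∈ X0 v H) (n : ℕ) :
    n • x ∈ X0 v H := by
  induction n with
  | zero => rw [zero_smul]; exact zero_mem_X0 v H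
  | succ n ih => rw [succ_nsmul]; exact hH.add_mem_X0 ih hx

/-- trivial action, exponent `p ^ k` : the connected part vanishes. -/
theorem X0_eq_zero_of_trivial [Finite X] {p : ℕ} (hp : p.Prime) (hp2 : p ≠ 2)
    (hSH : IsSH Γ v (p : C))
    (harch : ∀ g : Γ₀, g < 1 → ∀ d : Γ₀, d ≠ 0 → ∃ n : ℕ, g ^ n ≤ d)
    (k : ℕ) (hX : ∀ x : X, p ^ k • x = 0) (hH : IsEqOrder v α H) (htriv : ∀ g x, α g x = x) :
    ∀ x ∈ X0 v H, x = 0 := by
  -- the case of exponent `p`
  have h1 : ∀ x ∈ X0 v H, p • x = 0 → x = 0 := by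
    intro x hx hpx
    let Y : AddSubgroup X := (nsmulAddMonoidHom (α := X) p).ker
    have hY : ∀ y : ↥Y, p • y = 0 := fun y => Subtype.ext y.2
    have hord : IsEqOrder v (1 : Γ →* AddMonoid.End ↥Y) (H.map (pb C Y.subtype)) :=
      IsEqOrder.map_inj Y.subtype Subtype.coe_injective (fun g y => (htriv g y).symm) hH
    have hxY : x ∈ Y := hpx
    have h0 : (⟨x, hxY⟩ : ↥Y) ∈ X0 v (H.map (pb C Y.subtype)) := by
      rintro _ ⟨a, ha, rfl⟩
      exact hx a ha
    have := hord.eq_zero_of_fixed hp hp2 hSH harch hY h0 (fun g => rfl)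
    exact congrArg Subtype.val this
  intro x hx
  have h2 : ∀ j : ℕ, p ^ j • x = 0 → x = 0 := by
    intro j
    induction j with
    | zero => intro h; simpa using h
    | succ j ih =>
      intro h
      refine ih (h1 _ (nsmul_mem_X0 hH hx _) ?_)
      rw [smul_smul, ← pow_succ']
      exact h
  exact h2 k (hX x)

/-- **[P-TP-X0AUG]** -/
theorem X0_le_aug [CharZero C] [Finite X] {p : ℕ} (hp : p.Prime) (hp2 : p ≠ 2)
    (hSH : IsSH Γ v (p : C))
    (harch : ∀ g : Γ₀, g < 1 → ∀ d : Γ₀, d ≠ 0 → ∃ n : ℕ, g ^ n ≤ d)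
    (k : ℕ) (hX : ∀ x : X, p ^ k • x = 0) (hH : IsEqOrder v α H) :
    ∀ x ∈ X0 v H, x ∈ aug α := by
  intro x hx
  set φ : X →+ X ⧸ aug α := QuotientAddGroup.mk' (aug α) with hφdef
  have hφ : Function.Surjective φ := QuotientAddGroup.mk'_surjective _
  have hα : ∀ g x, φ (α g x) = (1 : Γ →* AddMonoid.End (X ⧸ aug α)) g (φ x) := by
    intro g x
    show φ (α g x) = φ x
    rw [← sub_eq_zero, ← map_sub]
    exact (QuotientAddGroup.eq_zero_iff _).2 (sub_mem_aug α g x)
  have hord := IsEqOrder.comap_surj φ hφ hα hH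
  have hX'' : ∀ y : X ⧸ aug α, p ^ k • y = 0 := by
    intro y
    obtain ⟨y, rfl⟩ := hφ y
    rw [← map_nsmul, hX, map_zero]
  have h0 : φ x ∈ X0 v (H.comap (pb C φ)) := by
    intro a ha
    have := hx _ ha
    rwa [pb_apply, pb_apply, map_zero] at this
  have := X0_eq_zero_of_trivial hp hp2 hSH harch k hX'' hord (fun _ _ => rfl) _ h0
  exact (QuotientAddGroup.eq_zero_iff _).1 this

/-- the connected part IS the augmentation subgroup. -/
theorem mem_X0_iff_mem_aug [CharZero C] [Finite X] {p : ℕ} (hp : p.Prime) (hp2 : p ≠ 2)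
    (hSH : IsSH Γ v (p : C))
    (harch : ∀ g : Γ₀, g < 1 → ∀ d : Γ₀, d ≠ 0 → ∃ n : ℕ, g ^ n ≤ d)
    (k : ℕ) (hX : ∀ x : X, p ^ k • x = 0) (hH : IsEqOrder v α H) (x : X) :
    x ∈ X0 v H ↔ x ∈ aug α :=
  ⟨X0_le_aug hp hp2 hSH harch k hX hH x, hH.aug_le_X0 hSH x⟩

end Main

end Fermat.Agent.ML.TP
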